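import Fermat.Agent.LT3.Red
import Fermat.Agent.LT3.Per.HeckeV
import Fermat.Agent.LT.LocPlace

/-!
# Conjugation on `ℚ(√-3)` and the places over a rational prime

`eq_or_eq_cjK`: two places over the same rational prime are equal or conjugate.
-/

set_option autoImplicit false
open IsDedekindDomain NumberField

namespace Fermat.LT3
open Fermat.LT

/-- A place contains at most one of two coprime numbers. -/
lemma natCast_mem_of_coprime {F : Type*} [Field F] [NumberField F] {v : Place F} {m n : ℕ}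
    (hco : Nat.Coprime m n) (hm : (m : 𝓞 F) ∈ v.asIdeal) : (n : 𝓞 F) ∉ v.asIdeal := fun hn => by
  obtain ⟨a, b, hab⟩ := Nat.isCoprime_iff_coprime.2 hco
  refine v.isPrime.ne_top ((Ideal.eq_top_iff_one _).2 ?_)
  have h1 : (1 : 𝓞 F) = (a : 𝓞 F) * (m : 𝓞 F) + (b : 𝓞 F) * (n : 𝓞 F) := by exact_mod_cast hab.symm
  rw [h1]
  exact add_mem (Ideal.mul_mem_left _ _ hm) (Ideal.mul_mem_left _ _ hn)

variable {K : Type*} [Field K] [NumberField K] (D : KData K)

/-- The Eisenstein integers are principal, as `𝓞 K` is. -/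
theorem KData.pidEI (D : KData K) : IsPrincipalIdealRing EI :=
  haveI := D.pid
  IsPrincipalIdealRing.of_surjective D.e.symm.toRingHom D.e.symm.surjective

/-- The conjugation of `K` induced by `star` on the Eisenstein integers. -/
noncomputable def KData.cjK (D : KData K) : K ≃+* K :=
  IsFractionRing.ringEquivOfRingEquiv ((D.e.symm.trans (starRingAut : EI ≃+* EI)).trans D.e)

/-- `cjK` carries the image of `star x` to the image of `x`. -/
lemma mapRingEquiv_cjK (x : EI) :
    RingOfIntegers.mapRingEquiv D.cjK (D.e (star x)) = D.e x := by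
  refine RingOfIntegers.ext ?_
  change D.cjK (D.e (star x) : K) = (D.e x : K)
  rw [KData.cjK]
  refine (IsFractionRing.ringEquivOfRingEquiv_algebraMap _ _).trans ?_
  simp

/-- The conjugate of a prime is prime. -/
lemma prime_star {π : EI} (h : Prime π) : Prime (star π) :=
  (MulEquiv.prime_iff ((starRingAut : EI ≃+* EI) : EI ≃* EI)).2 h

/-- Conjugation maps the place of a prime to that of its conjugate. -/
lemma mapPlace_cjK {π : EI} (h : Prime π) :
    mapPlace D.cjK (piPlace D h) = piPlace D (prime_star h) := by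
  refine (eq_piPlace D (prime_star h) ?_).symm
  rw [← mapRingEquiv_cjK D (star π), star_star, mapPlace_asIdeal]
  exact (mem_piPlace D h π).2 dvd_rfl

/-- Two places over the same rational prime are equal or conjugate. -/
theorem eq_or_eq_cjK {v v' : Place K} {ℓ : ℕ} (hℓ : ℓ.Prime) (h : (ℓ : 𝓞 K) ∈ v.asIdeal)
    (h' : (ℓ : 𝓞 K) ∈ v'.asIdeal) : v' = v ∨ v' = mapPlace D.cjK v := by
  have := D.pidEI
  obtain ⟨π, hπ, hv⟩ := exists_prime_gen D v
  obtain ⟨π', hπ', hv'⟩ := exists_prime_gen D v'
  rw [← map_natCast D.e, mem_iff_dvd_of_span D hv] at h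
  rw [← map_natCast D.e, mem_iff_dvd_of_span D hv'] at h'
  obtain ⟨ℓ', hℓ', hd, hc⟩ := norm_prime_cases hπ
  obtain rfl : ℓ' = ℓ := by
    by_contra hne
    obtain ⟨a, b, hab⟩ := Nat.isCoprime_iff_coprime.2 ((Nat.coprime_primes hℓ' hℓ).2 hne)
    refine hπ.not_isUnit (isUnit_of_dvd_one ?_)
    have h1 : (1 : EI) = (a : EI) * (ℓ' : EI) + (b : EI) * (ℓ : EI) := by exact_mod_cast hab.symm
    rw [h1]
    exact dvd_add (hd.mul_left _) (h.mul_left _)
  have := Fact.mk hℓ'
  have hdvd : (ℓ' : EI) ∣ π * star π := by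
    rcases hc with hn | hass
    · rw [mul_star_of_norm hn]
    · exact hass.dvd'.trans (dvd_mul_right _ _)
  have hvπ : v = piPlace D hπ := HeightOneSpectrum.ext hv
  rcases hπ'.dvd_or_dvd (h'.trans hdvd) with hd' | hd'
  · left
    rw [hvπ, ← eq_piPlace D hπ' ((mem_piPlace D hπ π').2 (hπ'.associated_of_dvd hπ hd').dvd')]
    exact HeightOneSpectrum.ext hv'
  · right
    rw [hvπ, mapPlace_cjK D hπ, ← eq_piPlace D hπ'
      ((mem_piPlace D (prime_star hπ) π').2 (hπ'.associated_of_dvd (prime_star hπ) hd').dvd')]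
    exact HeightOneSpectrum.ext hv'

end Fermat.LT3
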