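import Fermat.Agent.LT3.Main.Frob
import Fermat.Agent.LT3.Per.Kill
import Fermat.Agent.LT.Theta.Gal.Tower
import Fermat.Agent.CFT.Density.IdealCount

/-!
# Bounds on the eigenvalues and primes of full splitting

`lamOK_lift`: the eigenvalues lifted to the typed function satisfy `LamOK`; `fullSplit_div`: the
primes splitting completely in the field of `ρ`, where their squares are `4 p`, have divergent
series. These are the hypotheses of `false_of_periods`, used in `Main/Lift`.
-/

set_option autoImplicit false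
open NumberField Fermat.CFT Filter
open scoped Classical Pointwise Topology

local notation "Γℚ" => (AlgebraicClosure ℚ ≃ₐ[ℚ] AlgebraicClosure ℚ)
local notation "ℚbar" => AlgebraicClosure ℚ

namespace Fermat.LT3
open Fermat.LT

variable {K L : Type} [Field K] [NumberField K] [Field L] [NumberField L] [Algebra K L]
  {ρ : Γℚ →* GL (Fin 2) (ZMod 3)} {ι : L →+* ℚbar} {σ : L ≃ₐ[K] L} {v3 : Place K}
  {lam : Place L → ℝ} {lamK : Place K → ℝ}

/-- The hypotheses of the lift from `lamK` to weight one data. -/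
structure EigData (ρ : Γℚ →* GL (Fin 2) (ZMod 3)) (ι : L →+* ℚbar) (D : KData K) (v3 : Place K)
    (lam : Place L → ℝ) (lamK : Place K → ℝ) (σ : L ≃ₐ[K] L) : Prop where
  /-- `ρ` is semistable away from `3` and supersingular at `3`. -/
  rho : RhoData ρ
  /-- `K` and `L` are the fields cut out by `ρ`. -/
  field : FieldData K L ρ ι
  /-- `σ` generates the cyclic cubic extension `L/K`. -/
  cyc : Cyc3 K L σ
  /-- The hypotheses of the descent from `L` to `K`. -/
  desc : DescentData K L v3 lam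
  /-- Away from `3` the eigenvalues on `L` are those of `ρ`. -/
  eigen : IsRhoEigen L ρ ι lam
  /-- Off the level the eigenvalues on `L` are the base change of `lamK`. -/
  lifts : Lifts K L v3 lam lamK
  /-- Off the level `lamK` is invariant under the automorphisms of `K`. -/
  stable : StableK L v3 lamK

/-- The eigenvalues of `A` are those of `lamK`. -/
def Matches (D : KData K) {E : ℕ} [NeZero E] (A : TAuto E) (lamK : Place K → ℝ) : Prop :=
  ∀ π, ∀ hπ : Prime π, A.lam π = lamK (piPlace D hπ)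

variable {D : KData K} (h : EigData ρ ι D v3 lam lamK σ) (A : TAuto (lvl K L))
  (hA : Matches D A lamK)

/-- A natural number divisible by `π` lies in the place of `π`. -/
lemma prime_mem_piPlace {π : EI} (hπ : Prime π) {ℓ : ℕ} (hd : π ∣ (ℓ : EI)) :
    (ℓ : 𝓞 K) ∈ (piPlace D hπ).asIdeal := by
  rw [← map_natCast D.e]
  exact (mem_piPlace D hπ _).2 hd

include h hA in
/-- The bound and the value of the eigenvalue at a prime `π` dividing a good `p`. -/
theorem lam_over {p : ℕ} (hp : p.Prime) (hco : Nat.Coprime p (3 * lvl K L))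
    {B : ValuationSubring ℚbar} (hB : B.LiesOverPrime p) {φ : Γℚ} (hφ : B.IsFrobeniusAt φ p)
    {π : EI} (hπ : Prime π) (hd : π ∣ (p : EI)) :
    |A.lam π| ≤ 2 * Real.sqrt ((p ^ fdeg p : ℕ) : ℝ) ∧
      (InQ8 (ρ (φ ^ fdeg p)) → A.lam π
        = Real.sqrt ((p ^ fdeg p : ℕ) : ℝ) * (liftTr (ρ (φ ^ fdeg p)) : ℝ)) := by
  rw [hA π hπ]
  exact eigen_over h.field h.cyc D h.desc h.eigen h.lifts h.stable hp hco hB hφ
    (prime_mem_piPlace hπ hd)

omit [NumberField L] in
/-- If `π` is a unit modulo `9 E` then a rational prime it divides is prime to `3 E`. -/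
lemma coprime_of_unit_red {π : EI} (hπ : Prime π) {E : ℕ} (hu : IsUnit (red (3 * (3 * E)) π))
    {ℓ : ℕ} (hℓ : ℓ.Prime) (hd : π ∣ (ℓ : EI)) : Nat.Coprime ℓ (3 * E) := by
  refine hℓ.coprime_iff_not_dvd.2 fun hdvd => hπ.not_isUnit ?_
  obtain ⟨y, hy⟩ := isUnit_iff_exists_inv.1 hu
  obtain ⟨z, rfl⟩ := red_surjective (3 * (3 * E)) y
  rw [← map_mul, ← map_one (red (3 * (3 * E))), ← sub_eq_zero, ← map_sub, red_eq_zero_iff] at hy
  obtain ⟨k, hk⟩ := hy
  refine isUnit_of_dvd_one ?_
  obtain ⟨c, hc⟩ := hdvd.trans (dvd_mul_left (3 * E) 3)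
  rw [show (1 : EI) = π * z - ((3 * (3 * E) : ℕ) : EI) * k by linear_combination -hk, hc,
    Nat.cast_mul]
  exact dvd_sub (dvd_mul_right _ _) ((hd.mul_right _).mul_right _)

include h hA in
/-- **Ramanujan bound and symmetries.** The eigenvalues of the lift satisfy `LamOK`. -/
theorem lamOK_lift : LamOK A.toAuto := by
  have := D.pidEI
  -- conjugation invariance, the bound, and nonnegativity at the inert primes
  refine ⟨fun π hπ hu => ?_, fun π hπ hu => ?_, fun p hp hco hno => ?_⟩
  · obtain ⟨ℓ, hℓ, hd, -⟩ := norm_prime_cases hπ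
    show A.lam (star π) = A.lam π
    rw [hA _ (prime_star hπ), hA π hπ, ← mapPlace_cjK D hπ]
    exact h.stable _ _ (not_mem_lev D h.desc (coprime_of_unit_red hπ hu hℓ hd)
      (prime_mem_piPlace hπ hd))
  · obtain ⟨ℓ, hℓ, hd, hc⟩ := norm_prime_cases hπ
    have hco := coprime_of_unit_red hπ hu hℓ hd
    obtain ⟨B, hB⟩ := exists_place hℓ
    obtain ⟨φ, hφ⟩ := exists_isFrobeniusAt hℓ hB
    refine (lam_over h A hA hℓ hco hB hφ hπ hd).1.trans ?_
    refine mul_le_mul_of_nonneg_left (Real.sqrt_le_sqrt ?_) two_pos.le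
    have hle : ((ℓ ^ fdeg ℓ : ℕ) : ℤ) ≤ QuadraticAlgebra.norm π := by
      rcases hc with hn | hass
      · have h3 : ℓ ≠ 3 := fun e => by
          have := Nat.Coprime.coprime_dvd_right (dvd_mul_right 3 (lvl K L)) hco
          rw [e] at this; norm_num at this
        have := norm_mod_three π hn
        have h0 : ℓ % 3 ≠ 0 := fun e => h3 ((Nat.prime_dvd_prime_iff_eq Nat.prime_three hℓ).1
          (Nat.dvd_of_mod_eq_zero e)).symm
        rw [fdeg, if_pos (by omega), pow_one, hn]
      · obtain ⟨u, hu'⟩ := hass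
        have e : QuadraticAlgebra.norm π = (ℓ : ℤ) ^ 2 := by
          rw [← norm_natCast_EI, ← hu', map_mul, norm_unit_EI, mul_one]
        rw [e]
        have : ℓ ^ fdeg ℓ ≤ ℓ ^ 2 :=
          Nat.pow_le_pow_right hℓ.pos (by rw [fdeg]; split_ifs <;> norm_num)
        exact_mod_cast this
    exact_mod_cast hle
  · obtain ⟨B, hB⟩ := exists_place hp
    obtain ⟨φ, hφ⟩ := exists_isFrobeniusAt hp hB
    have := Fact.mk hp
    have h1 : p % 3 ≠ 1 := fun e => hno (exists_norm_eq_of_one_mod e)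
    have hf : fdeg p = 2 := if_neg h1
    have hp3 : p ≠ 3 := ne_three_of_coprime hco
    have hdet : Matrix.GeneralLinearGroup.det (ρ φ) ≠ 1 :=
      fun e => h1 ((det_frob_iff h.field D hp hp3 hB hφ).1 e)
    obtain ⟨h8, h0⟩ := inQ8_square hdet
    have hl := (lam_over h A hA hp hco hB hφ (prime_inert hp hno) dvd_rfl).2
    rw [hf, map_pow] at hl
    rw [hl h8]
    exact mul_nonneg (Real.sqrt_nonneg _) (Int.cast_nonneg h0)

/-- Splits completely in the field of `ρ`. -/
def FullSplit (ρ : Γℚ →* GL (Fin 2) (ZMod 3)) [NumberField (LT.Theta.Gal.nField ρ)] (E p : ℕ) :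
    Prop :=
  Nat.Coprime p (3 * E) ∧ idealCount (LT.Theta.Gal.nField ρ) p ≠ 0

variable [NumberField (LT.Theta.Gal.nField ρ)]

include h in
/-- At a fully split prime some Frobenius is trivial under `ρ`. -/
theorem rho_frob_eq_one {p : ℕ} (hp : p.Prime) (hP : FullSplit ρ (lvl K L) p) :
    ∃ B : ValuationSubring ℚbar, B.LiesOverPrime p ∧ ∃ φ : Γℚ, B.IsFrobeniusAt φ p ∧ ρ φ = 1 := by
  obtain ⟨hco, hN⟩ := hP
  set N := LT.Theta.Gal.nField ρ
  have : FiniteDimensional ℚ N := LT.Theta.Gal.finite_nField h.rho.continuous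
  have : IsGalois ℚ N := LT.Theta.Gal.isGalois_nField h.rho.continuous
  -- a prime of `N` of norm `p`
  obtain ⟨I, hI⟩ := (Nat.card_pos_iff.1 (Nat.pos_of_ne_zero hN)).1
  have hIp : I.IsPrime := Ideal.isPrime_of_irreducible_absNorm (hI.symm ▸ hp)
  have hpI : (p : 𝓞 N) ∈ I := natCast_mem_of_absNorm_dvd hI.dvd
  obtain ⟨B, hB, hBI⟩ := exists_place_over N hIp hp hpI
  obtain ⟨φ, hφ⟩ := exists_isFrobeniusAt hp hB
  refine ⟨B, hB, φ, hφ, ?_⟩
  have hpow : ∀ x : 𝓞 N, x ^ p - x ∈ I := fun x => by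
    have := pow_pnorm_sub_mem (⟨I, hIp, ne_bot_of_natCast_mem hp hpI⟩ : Place N) x
    rwa [show pnorm (⟨I, hIp, ne_bot_of_natCast_mem hp hpI⟩ : Place N) = p from hI] at this
  -- so on `N` Frobenius agrees with an inertia element `τ`
  obtain ⟨τ, hτ, hres⟩ := exists_mem_inertia_restrict (L := N) hp hB
    (g := AlgEquiv.restrictNormalHom N φ) fun x => by
      rw [primeBelow, hBI]
      have h1 := isFrobeniusMod_restrict N hp hB hφ x
      rw [primeBelow, hBI] at h1
      have := add_mem h1 (hpow x)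
      rwa [sub_add_sub_cancel] at this
  have hτφ : ρ τ = ρ φ := by
    have h2 : τ * φ⁻¹ ∈ (AlgEquiv.restrictNormalHom (F := ℚ) (K₁ := ℚbar) N).ker := by
      rw [MonoidHom.mem_ker, map_mul, map_inv, hres, mul_inv_cancel]
    rw [LT.Theta.Gal.ker_restrict h.rho.continuous, MonoidHom.mem_ker, map_mul, map_inv,
      mul_inv_eq_one] at h2
    exact h2
  have hp3 : p ≠ 3 := ne_three_of_coprime hco
  obtain ⟨w, hw, hpw⟩ := exists_under ι hp hB
  have hram : below K w ∉ ramSet K L := fun hv => not_mem_lev D h.desc hco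
    (natCast_mem_below hpw) (Set.mem_insert_of_mem _ hv)
  rw [← hτφ]
  -- `ρ τ` is unipotent and lies in `Q₈`, so is trivial
  exact eq_one_of_inQ8 (h.rho.unipotent p hp hp3 B hB τ hτ)
    (inQ8_of_inertia h.field h.cyc D hp hp3 hB hw hpw hram
      ((mem_inertiaSubgroupIn_iff hp hB τ).1 hτ))

include h hA in
/-- **At the primes of full splitting the squared eigenvalues are `4 p`.** -/
theorem fullSplit_spec {p : ℕ} (hp : p.Prime) (hP : FullSplit ρ (lvl K L) p) :
    Nat.Coprime p (3 * lvl K L) ∧ ∃ ϖ : EI, QuadraticAlgebra.norm ϖ = (p : ℤ) ∧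
      ∀ ϖ' : EI, QuadraticAlgebra.norm ϖ' = (p : ℤ) → A.lam ϖ' ^ 2 = 4 * p := by
  have := D.pidEI
  have := Fact.mk hp
  obtain ⟨B, hB, φ, hφ, hρ1⟩ := rho_frob_eq_one h hp hP
  have hp3 : p ≠ 3 := ne_three_of_coprime hP.1
  have h1 : p % 3 = 1 := (det_frob_iff h.field D hp hp3 hB hφ).1 (by rw [hρ1, map_one])
  obtain ⟨ϖ, hϖ⟩ := exists_norm_eq_of_one_mod (p := p) h1
  refine ⟨hP.1, ϖ, hϖ, fun ϖ' hϖ' => ?_⟩
  have hl := (lam_over h A hA hp hP.1 hB hφ (prime_of_norm_prime hϖ' hp3)
    ⟨star ϖ', (mul_star_of_norm hϖ').symm⟩).2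
  rw [fdeg, if_pos h1, pow_one, pow_one, hρ1] at hl
  rw [hl ⟨by simp, Or.inr (Or.inl (by simp))⟩]
  rw [liftTr, if_pos Units.val_one, mul_pow, Real.sq_sqrt (Nat.cast_nonneg p)]
  norm_num
  ring

/-- **Divergence over those primes.** The sum of `p ^ (-s)` over the fully split primes is unbounded
as `s` tends to `1` from the right. -/
theorem fullSplit_div {E : ℕ} [NeZero E] (C : ℝ) :
    ∃ᶠ s : ℝ in 𝓝[>] 1, C ≤ ∑' p : Nat.Primes, if FullSplit ρ E p then ((p : ℝ) ^ s)⁻¹ else 0 := by
  set N := LT.Theta.Gal.nField ρ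
  set d : ℝ := (Module.finrank ℚ N : ℝ)
  have hd : 0 < d := Nat.cast_pos.2 Module.finrank_pos
  set g : Nat.Primes → ℝ := fun p =>
    if Nat.Coprime p (3 * E) then (idealCount N p : ℝ) else 0
  have hg : ∀ p, |g p| ≤ d := fun p => by
    by_cases hc : Nat.Coprime p (3 * E)
    · simp only [g, if_pos hc, Nat.abs_cast]
      exact Nat.cast_le.2 (idealCount_prime_le N p.2)
    · simp only [g, if_neg hc, abs_zero]; exact hd.le
  -- the ideal count of `N` diverges logarithmically
  have hasy : IsLogAsymp g 1 := by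
    refine (isLogAsymp_idealCount N).congr_finite hg ?_
    refine Set.Finite.of_finite_image ((3 * E).divisors.finite_toSet.subset ?_)
      (Nat.Primes.coe_nat_injective.injOn)
    rintro _ ⟨p, hp, rfl⟩
    refine Nat.mem_divisors.2 ⟨?_, mul_ne_zero three_ne_zero (NeZero.ne E)⟩
    by_contra hnd
    exact hp (by simp [g, p.2.coprime_iff_not_dvd.2 hnd])
  obtain ⟨B, hB⟩ := hasy.isBigO.bound
  have hlim : Tendsto (fun s : ℝ => Real.log (s - 1)) (𝓝[>] 1) atBot := by
    refine Real.tendsto_log_nhdsGT_zero.comp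
      (tendsto_nhdsWithin_of_tendsto_nhds_of_eventually_within _ ?_ ?_)
    · simpa using ((continuous_sub_right (1 : ℝ)).tendsto 1).mono_left nhdsWithin_le_nhds
    · filter_upwards [self_mem_nhdsWithin] with s hs using sub_pos.mpr (Set.mem_Ioi.mp hs)
  refine Filter.Eventually.frequently ?_
  filter_upwards [hB, hlim.eventually (eventually_le_atBot (-(d * C + |B|))),
    self_mem_nhdsWithin] with s hs1 hs2 (hs3 : 1 < s)
  simp only [one_mul, NormOneClass.norm_one, mul_one, Real.norm_eq_abs] at hs1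
  set f : Nat.Primes → ℝ := fun p => if FullSplit ρ E p then (1 : ℝ) else 0
  have hf : ∀ p, |f p| ≤ 1 := fun p => by simp only [f]; split_ifs <;> simp
  have e : ∑' p : Nat.Primes, (if FullSplit ρ E p then ((p : ℝ) ^ s)⁻¹ else 0) = primeSum f s := by
    refine tsum_congr fun p => ?_
    simp only [f]
    split_ifs with hP
    · rw [one_mul, Real.rpow_neg (Nat.cast_nonneg _)]
    · rw [zero_mul]
  -- split primes carry the divergence
  have hle : primeSum g s ≤ d * primeSum f s := by
    rw [primeSum, primeSum, ← tsum_mul_left]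
    refine (summable_primeSum hg hs3).tsum_le_tsum (fun p => ?_)
      ((summable_primeSum hf hs3).mul_left d)
    rw [← mul_assoc]
    refine mul_le_mul_of_nonneg_right ?_ (Real.rpow_nonneg (Nat.cast_nonneg _) _)
    by_cases hP : FullSplit ρ E p
    · simp only [f, if_pos hP, mul_one]
      exact (le_abs_self _).trans (hg p)
    · simp only [f, g, if_neg hP, mul_zero]
      split_ifs with hc
      · simp [show idealCount N p = 0 by by_contra hne; exact hP ⟨hc, hne⟩]
      · exact le_rfl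
  rw [e]
  have h1 := neg_le_of_abs_le hs1
  exact le_of_mul_le_mul_left (by linarith [le_abs_self B]) hd

end Fermat.LT3
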