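import Fermat.Agent.LT3.Main.Conj
import Fermat.Agent.LT3.Bridge
import Fermat.Agent.LT.Sys.Geo

/-!
# The level

`E` is the product of the primes below the ramified places; the level is made
of all places over `3E`.
-/

set_option autoImplicit false
open NumberField

namespace Fermat.LT3
open Fermat.LT

variable {K L : Type} [Field K] [NumberField K] [Field L] [NumberField L] [Algebra K L]
  {v3 : Place K} {lam : Place L → ℝ}

/-- A place containing a nonzero number contains one of its prime factors. -/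
lemma exists_prime_mem {F : Type*} [Field F] (v : Place F) {n : ℕ} (hn : n ≠ 0)
    (h : (n : 𝓞 F) ∈ v.asIdeal) : ∃ ℓ : ℕ, ℓ.Prime ∧ ℓ ∣ n ∧ (ℓ : 𝓞 F) ∈ v.asIdeal := by
  induction n using Nat.recOnMul with
  | zero => exact absurd rfl hn
  | one => exact absurd ((Ideal.eq_top_iff_one _).2 (by simpa using h)) v.isPrime.ne_top
  | prime p hp => exact ⟨p, hp, dvd_rfl, h⟩
  | mul a b iha ihb =>
    rw [Nat.cast_mul] at h
    rcases v.isPrime.mem_or_mem h with h | h
    · obtain ⟨ℓ, h1, h2, h3⟩ := iha (left_ne_zero_of_mul hn) h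
      exact ⟨ℓ, h1, h2.mul_right _, h3⟩
    · obtain ⟨ℓ, h1, h2, h3⟩ := ihb (right_ne_zero_of_mul hn) h
      exact ⟨ℓ, h1, h2.mul_left _, h3⟩

/-- The residue count of a place is not zero. -/
lemma pnorm_ne_zero' {F : Type*} [Field F] [NumberField F] (v : Place F) : pnorm v ≠ 0 := by
  rw [pnorm, Ne, Ideal.absNorm_eq_zero_iff]
  exact v.ne_bot

/-- A number prime to `3 N` is not three. -/
lemma ne_three_of_coprime {p N : ℕ} (h : Nat.Coprime p (3 * N)) : p ≠ 3 := fun e => by
  have := Nat.Coprime.coprime_dvd_right (dvd_mul_right 3 N) h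
  rw [e] at this; norm_num at this

variable (K L) in
/-- The primes below the ramified places. -/
def ramPrimes : Set ℕ := {ℓ | ℓ.Prime ∧ ∃ v ∈ ramSet K L, (ℓ : 𝓞 K) ∈ v.asIdeal}

/-- There are finitely many such primes. -/
lemma finite_ramPrimes : (ramPrimes K L).Finite := by
  refine ((Sys.finite_ramSet (K := K) (L := L)).biUnion
    (t := fun v => ((pnorm v).divisors : Set ℕ)) fun v _ => Finset.finite_toSet _).subset ?_
  rintro ℓ ⟨hℓ, v, hv, h⟩
  refine Set.mem_biUnion hv (Nat.mem_divisors.2 ⟨?_, pnorm_ne_zero' v⟩)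
  by_contra hnd
  exact natCast_mem_of_coprime (hℓ.coprime_iff_not_dvd.2 hnd) h (Ideal.absNorm_mem v.asIdeal)

variable (K L) in
/-- The level away from `3`. -/
noncomputable def lvl : ℕ := ∏ ℓ ∈ (finite_ramPrimes (K := K) (L := L)).toFinset, ℓ

/-- The primes dividing the level lie below ramified places. -/
lemma mem_ramPrimes_of_dvd {ℓ : ℕ} (hℓ : ℓ.Prime) (h : ℓ ∣ lvl K L) : ℓ ∈ ramPrimes K L := by
  obtain ⟨q, hq, hd⟩ := (hℓ.prime.dvd_finsetProd_iff _).1 h
  rw [Set.Finite.mem_toFinset] at hq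
  rwa [(Nat.prime_dvd_prime_iff_eq hℓ hq.1).1 hd]

/-- The level is not zero. -/
lemma lvl_ne_zero : lvl K L ≠ 0 :=
  Finset.prod_ne_zero_iff.2 fun _ hq => ((Set.Finite.mem_toFinset _).1 hq).1.ne_zero

/-- The level as a `NeZero` instance. -/
instance instNeZeroLvl : NeZero (lvl K L) := ⟨lvl_ne_zero⟩

/-- The level is squarefree. -/
lemma squarefree_lvl : Squarefree (lvl K L) := by
  refine Finset.squarefree_prod_of_pairwise_isCoprime ?_ fun q hq =>
    ((Set.Finite.mem_toFinset _).1 hq).1.squarefree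
  intro a ha b hb hne
  simp only [Finset.mem_coe, Set.Finite.mem_toFinset] at ha hb
  exact Nat.coprime_iff_isRelPrime.1 ((Nat.coprime_primes ha.1 hb.1).2 hne)

/-- The level is prime to `3`. -/
lemma three_not_dvd_lvl (d : DescentData K L v3 lam) : ¬ 3 ∣ lvl K L := fun h => by
  obtain ⟨-, v, hv, h3⟩ := mem_ramPrimes_of_dvd Nat.prime_three h
  have e : v = v3 := d.only3 v (by exact_mod_cast h3)
  subst e
  exact (Sys.geoData d).v3_unram hv

/-- `3` lies in `v3`, as the norm of `v3` is `3`. -/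
lemma three_mem_v3 (d : DescentData K L v3 lam) : (3 : 𝓞 K) ∈ v3.asIdeal := by
  have h := Ideal.absNorm_mem v3.asIdeal
  rw [show Ideal.absNorm v3.asIdeal = 3 from d.norm_v3] at h
  exact_mod_cast h

variable (D : KData K)

/-- **The level data.** Descent data give the level data `BData` at `lvl K L`. -/
theorem bData_lvl (d : DescentData K L v3 lam) : BData D (lvl K L) (levK L v3) v3 where
  norm_v3 := d.norm_v3
  three_mem := by rw [map_ofNat]; exact three_mem_v3 d
  not_three := three_not_dvd_lvl d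
  mem_iff v := by
    rw [map_natCast]
    constructor
    · intro hv
      rw [Nat.cast_mul]
      rcases hv with rfl | hv
      · exact Ideal.mul_mem_right _ _ (by exact_mod_cast three_mem_v3 d)
      · obtain ⟨ℓ, hℓ, -, hℓv⟩ :=
          exists_prime_mem v (pnorm_ne_zero' v) (Ideal.absNorm_mem v.asIdeal)
        refine Ideal.mul_mem_left _ _ ?_
        obtain ⟨c, hc⟩ : ℓ ∣ lvl K L :=
          Finset.dvd_prod_of_mem _ ((Set.Finite.mem_toFinset _).2 ⟨hℓ, v, hv, hℓv⟩)
        rw [hc, Nat.cast_mul]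
        exact Ideal.mul_mem_right _ _ hℓv
    · intro h
      obtain ⟨ℓ, hℓ, hd, hℓv⟩ := exists_prime_mem v (mul_ne_zero three_ne_zero lvl_ne_zero) h
      rcases hℓ.dvd_mul.1 hd with hd | hd
      · rw [(Nat.prime_dvd_prime_iff_eq hℓ Nat.prime_three).1 hd] at hℓv
        rw [d.only3 v (by exact_mod_cast hℓv)]
        exact Set.mem_insert _ _
      · obtain ⟨-, v', hv', hℓv'⟩ := mem_ramPrimes_of_dvd hℓ hd
        rcases eq_or_eq_cjK D hℓ hℓv' hℓv with rfl | rfl
        · exact Set.mem_insert_of_mem _ hv'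
        · exact (Sys.stable_levK d D.cjK v').2 (Set.mem_insert_of_mem _ hv')

include D in
/-- Places over primes prime to `3E` are outside the level. -/
lemma not_mem_lev (d : DescentData K L v3 lam) {p : ℕ} (hco : Nat.Coprime p (3 * lvl K L))
    {v : Place K} (h : (p : 𝓞 K) ∈ v.asIdeal) : v ∉ levK L v3 := fun hv => by
  have h1 := ((bData_lvl D d).mem_iff v).1 hv
  rw [map_natCast] at h1
  exact natCast_mem_of_coprime hco h h1

end Fermat.LT3
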