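import Fermat.Agent.LT3.Main.Inertia
import Fermat.Agent.LT3.Main.Level

/-!
# The eigenvalues of the descended form at the good places

A Frobenius at a good prime has determinant one exactly when the prime splits
in `K`; its power of the residue degree gives the eigenvalue, or its cube when the
place is inert in `L`.
-/

set_option autoImplicit false
open IsDedekindDomain NumberField Fermat.CFT
open scoped Classical Pointwise

local notation "Γℚ" => (AlgebraicClosure ℚ ≃ₐ[ℚ] AlgebraicClosure ℚ)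
local notation "ℚbar" => AlgebraicClosure ℚ
local notation "M23" => Matrix (Fin 2) (Fin 2) (ZMod 3)

namespace Fermat.LT3
open Fermat.LT

section Mat

/-- The cube of a determinant one matrix modulo `3` has determinant one and is `± 1` or of trace
zero (checked on all matrices). -/
lemma q8_cube : ∀ a b c d : ZMod 3, (!![a, b; c, d] : M23).det = 1 →
    ((!![a, b; c, d] : M23) ^ 3).det = 1 ∧ (((!![a, b; c, d] : M23) ^ 3).trace = 0 ∨
      ((!![a, b; c, d] : M23) ^ 3 = 1 ∨ (!![a, b; c, d] : M23) ^ 3 = -1)) := by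
  decide +kernel

/-- The square of a determinant `-1` matrix modulo `3` has determinant one and is `1`, or of trace
zero and not `-1` (checked on all matrices). -/
lemma q8_square : ∀ a b c d : ZMod 3, (!![a, b; c, d] : M23).det = -1 →
    ((!![a, b; c, d] : M23) ^ 2).det = 1 ∧ ((!![a, b; c, d] : M23) ^ 2 = 1 ∨
      (((!![a, b; c, d] : M23) ^ 2).trace = 0 ∧ (!![a, b; c, d] : M23) ^ 2 ≠ -1)) := by
  decide +kernel

/-- A unipotent matrix modulo `3` that is `± 1` or of trace zero is `1`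
(checked on all matrices). -/
lemma q8_unipotent : ∀ a b c d : ZMod 3, ((!![a, b; c, d] : M23) - 1) ^ 2 = 0 →
    ((!![a, b; c, d] : M23).trace = 0 ∨
      ((!![a, b; c, d] : M23) = 1 ∨ (!![a, b; c, d] : M23) = -1)) → (!![a, b; c, d] : M23) = 1 := by
  decide +kernel

/-- Cubes of determinant one matrices lie in `Q₈`. -/
lemma inQ8_cube {g : GL (Fin 2) (ZMod 3)} (h : Matrix.GeneralLinearGroup.det g = 1) :
    InQ8 (g ^ 3) := by
  have hd : g.val.det = 1 := by
    rw [← Matrix.GeneralLinearGroup.val_det_apply, h, Units.val_one]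
  rw [InQ8, Units.val_pow_eq_pow_val]
  rw [Matrix.eta_fin_two g.val] at hd ⊢
  exact q8_cube _ _ _ _ hd

/-- Squares of determinant `-1` matrices lie in `Q₈` and lift with nonnegative trace. -/
lemma inQ8_square {g : GL (Fin 2) (ZMod 3)} (h : Matrix.GeneralLinearGroup.det g ≠ 1) :
    InQ8 (g ^ 2) ∧ 0 ≤ liftTr (g ^ 2) := by
  have hd : g.val.det = -1 := by
    have h1 : ∀ u : ZMod 3, u ≠ 0 → u ≠ 1 → u = -1 := by decide
    refine h1 _ (Matrix.GeneralLinearGroup.det g).isUnit.ne_zero fun e => h (Units.ext ?_)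
    rw [Matrix.GeneralLinearGroup.val_det_apply, e, Units.val_one]
  rw [InQ8, liftTr, Units.val_pow_eq_pow_val]
  rw [Matrix.eta_fin_two g.val] at hd ⊢
  obtain ⟨h1, h2⟩ := q8_square _ _ _ _ hd
  rcases h2 with h2 | ⟨h2, h3⟩
  · exact ⟨⟨h1, Or.inr (Or.inl h2)⟩, by rw [if_pos h2]; norm_num⟩
  · refine ⟨⟨h1, Or.inl h2⟩, ?_⟩
    rw [h2]
    split_ifs <;> first | (norm_num; done) | exact absurd ‹(0 : ZMod 3) = 2› (by decide)

/-- The only unipotent in `Q₈` is `1`. -/
lemma eq_one_of_inQ8 {g : GL (Fin 2) (ZMod 3)} (hu : (g.val - 1) ^ 2 = 0) (h : InQ8 g) : g = 1 := by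
  refine Units.ext ?_
  rw [Units.val_one]
  have h2 := h.2
  rw [Matrix.eta_fin_two g.val] at hu h2 ⊢
  exact q8_unipotent _ _ _ _ hu h2

/-- The lifted trace is at most `2` in absolute value. -/
lemma abs_liftTr_le (g : GL (Fin 2) (ZMod 3)) : |(liftTr g : ℝ)| ≤ 2 := by
  rw [liftTr]
  split_ifs <;> norm_num

end Mat

section Pow

/-- Powers of a Frobenius are Frobenius for the powers. -/
lemma isFrobeniusAt_pow {A : ValuationSubring ℚbar} {σ : Γℚ} {q : ℕ} (h : A.IsFrobeniusAt σ q)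
    (k : ℕ) : A.IsFrobeniusAt (σ ^ k) (q ^ k) := by
  refine ⟨pow_mem h.mem_decompositionSubgroup k, fun x => ?_⟩
  rw [show (⟨σ ^ k, pow_mem h.mem_decompositionSubgroup k⟩ : A.decompositionSubgroup ℚ)
    = ⟨σ, h.mem_decompositionSubgroup⟩ ^ k from Subtype.ext (by simp)]
  induction k generalizing x with
  | zero => simp
  | succ k ih => rw [pow_succ, mul_smul, h.smul_residue_eq, smul_pow', ih, ← pow_mul, ← pow_succ]

variable {F : Type} [Field F] [NumberField F]

/-- The residue count's power map is the identity modulo a place. -/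
lemma pow_pnorm_sub_mem (v : Place F) (x : 𝓞 F) : x ^ pnorm v - x ∈ v.asIdeal := by
  have := v.isMaximal
  let : Field (𝓞 F ⧸ v.asIdeal) := Ideal.Quotient.field _
  have : Finite (𝓞 F ⧸ v.asIdeal) := Ideal.finiteQuotientOfFreeOfNeBot _ v.ne_bot
  let := Fintype.ofFinite (𝓞 F ⧸ v.asIdeal)
  rw [← Ideal.Quotient.eq, map_pow, ← natCard_quot, Nat.card_eq_fintype_card]
  exact FiniteField.pow_card _

/-- A place has at least two residues. -/
lemma one_lt_pnorm' (v : Place F) : 1 < pnorm v := HeightOneSpectrum.one_lt_absNorm v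

/-- If the `q`-th power map is the identity modulo a place, there are at most `q` residues. -/
lemma pnorm_le_of_pow (v : Place F) {q : ℕ} (hq : 1 < q)
    (h : ∀ x : 𝓞 F, x ^ q - x ∈ v.asIdeal) : pnorm v ≤ q := by
  have := v.isMaximal
  let : Field (𝓞 F ⧸ v.asIdeal) := Ideal.Quotient.field _
  have : Finite (𝓞 F ⧸ v.asIdeal) := Ideal.finiteQuotientOfFreeOfNeBot _ v.ne_bot
  let := Fintype.ofFinite (𝓞 F ⧸ v.asIdeal)
  rw [← natCard_quot, Nat.card_eq_fintype_card]
  set f : Polynomial (𝓞 F ⧸ v.asIdeal) := Polynomial.X ^ q - Polynomial.X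
  have hf : f ≠ 0 := FiniteField.X_pow_card_sub_X_ne_zero _ hq
  have hd : f.natDegree = q := FiniteField.X_pow_card_sub_X_natDegree_eq _ hq
  rw [← hd, ← Finset.card_univ]
  refine (Finset.card_le_card (t := f.roots.toFinset) fun z _ => ?_).trans
    ((Multiset.toFinset_card_le _).trans (Polynomial.card_roots' f))
  obtain ⟨x, rfl⟩ := Ideal.Quotient.mk_surjective z
  rw [Multiset.mem_toFinset, Polynomial.mem_roots hf]
  simp only [f, Polynomial.IsRoot.def, Polynomial.eval_sub, Polynomial.eval_pow, Polynomial.eval_X]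
  rw [← map_pow, ← map_sub]
  exact Ideal.Quotient.eq_zero_iff_mem.2 (h x)

end Pow

variable {K L : Type} [Field K] [NumberField K] [Field L] [NumberField L] [Algebra K L]
  {ρ : Γℚ →* GL (Fin 2) (ZMod 3)} {ι : L →+* ℚbar} {σ : L ≃ₐ[K] L}

/-- `K` is quadratic over `ℚ`. -/
lemma finrank_of_kData (D : KData K) : Module.finrank ℚ K = 2 := by
  rw [← RingOfIntegers.rank, ← D.e.toAddEquiv.toIntLinearEquiv.finrank_eq,
    QuadraticAlgebra.finrank_eq_two]

omit [NumberField K] [NumberField L] in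
/-- An element with determinant one fixes the integers of `K`. -/
lemma smul_of_fixK (hF : FieldData K L ρ ι) {τ : Γℚ}
    (hτ : Matrix.GeneralLinearGroup.det (ρ τ) = 1) (x : 𝓞 K) :
    τ • RingOfIntegers.mapRingHom ι (algebraMap (𝓞 K) (𝓞 L) x)
      = RingOfIntegers.mapRingHom ι (algebraMap (𝓞 K) (𝓞 L) x) :=
  RingOfIntegers.ext ((hF.fixK τ).2 hτ (x : K))

variable {p : ℕ} {A : ValuationSubring ℚbar} {φ : Γℚ}

omit [NumberField L] in
/-- At `p ≠ 3` a Frobenius has determinant one exactly when `p ≡ 1` modulo `3` (`p` splits in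
`K`). -/
theorem det_frob_iff (hF : FieldData K L ρ ι) (D : KData K) (hp : p.Prime) (hp3 : p ≠ 3)
    (hA : A.LiesOverPrime p) (hφ : A.IsFrobeniusAt φ p) :
    Matrix.GeneralLinearGroup.det (ρ φ) = 1 ↔ p % 3 = 1 := by
  set R := omR ι D
  have h1 : R ^ 2 = R - 1 := omR_sq ι D
  have hR3 : R ^ 3 = -1 := by linear_combination (R + 1) * h1
  -- `φ R ≡ R ^ p` modulo the prime
  have hm := smul_sub_pow_mem hφ R
  have h3p : p % 3 ≠ 0 := fun h => hp3 (((Nat.prime_dvd_prime_iff_eq Nat.prime_three hp).1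
    (Nat.dvd_of_mod_eq_zero h)).symm)
  have h6 : R ^ 6 = 1 := by linear_combination (R ^ 3 - 1) * hR3
  have hpow : R ^ p = R ^ (p % 6) := by
    conv_lhs => rw [← Nat.div_add_mod p 6, pow_add, pow_mul, h6, one_pow, one_mul]
  constructor
  · intro hdet
    by_contra hne
    -- if `det = 1`, `R` is fixed, so `2R - 1`, of square `-3`, is in the prime
    have hfix : φ • R = R := smul_of_fixK hF hdet _
    have hm2 : (2 * R - 1 : 𝓞 ℚbar) ∈ primeOf A := by
      rw [hfix] at hm
      rcases hp.eq_two_or_odd with rfl | hodd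
      · have h2 : ((2 : ℕ) : 𝓞 ℚbar) ∈ primeOf A := natCast_mem_primeOf hA
        rw [show (2 * R - 1 : 𝓞 ℚbar) = (R - R ^ 2) + ((2 : ℕ) : 𝓞 ℚbar) * (R - 1) by
          push_cast; linear_combination h1]
        exact add_mem hm (Ideal.mul_mem_right _ _ h2)
      · have e : R ^ p = 1 - R := by
          rw [hpow, show p % 6 = 5 by omega]
          linear_combination R ^ 2 * hR3 - h1
        rw [e] at hm
        rwa [show (2 * R - 1 : 𝓞 ℚbar) = R - (1 - R) by ring]
    have h3 : ((3 : ℤ) : 𝓞 ℚbar) ∈ primeOf A := by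
      have := Ideal.mul_mem_left _ (-(2 * R - 1)) hm2
      rwa [show -(2 * R - 1) * (2 * R - 1) = ((3 : ℤ) : 𝓞 ℚbar) by
        push_cast; linear_combination (-4) * h1] at this
    have := dvd_of_intCast_mem_primeOf hp hA h3
    exact hp3 ((Nat.prime_dvd_prime_iff_eq hp Nat.prime_three).1 (by exact_mod_cast this))
  · intro h
    -- conversely `R ^ p = R` when `p % 6 = 1`
    refine det_eq_one_of_congr (D := D) hF hp hp3 hA ?_
    rcases hp.eq_two_or_odd with rfl | hodd
    · simp at h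
    · rwa [hpow, show p % 6 = 1 by omega, pow_one] at hm

/-- A Frobenius of norm `q` with determinant one makes `x ^ q = x` modulo the place of `K` below. -/
lemma pow_sub_mem_below (hF : FieldData K L ρ ι) {w : Place L} (hw : Under ι A w) {τ : Γℚ} {q : ℕ}
    (hτ : A.IsFrobeniusAt τ q) (hdet : Matrix.GeneralLinearGroup.det (ρ τ) = 1) (x : 𝓞 K) :
    x ^ q - x ∈ (below K w).asIdeal := by
  change x ^ q - x ∈ w.asIdeal.under (𝓞 K)
  rw [Ideal.under_def, Ideal.mem_comap, hw, map_sub, map_sub, map_pow, map_pow]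
  have h := smul_sub_pow_mem hτ (RingOfIntegers.mapRingHom ι (algebraMap (𝓞 K) (𝓞 L) x))
  rw [smul_of_fixK hF hdet] at h
  have := neg_mem h
  rwa [neg_sub] at this

/-- The residue degree of `p ≠ 3` in `K`. -/
def fdeg (p : ℕ) : ℕ := if p % 3 = 1 then 1 else 2

omit [NumberField L] in
/-- The power of Frobenius by the residue degree has determinant one. -/
lemma det_pow_fdeg (hF : FieldData K L ρ ι) (D : KData K) (hp : p.Prime) (hp3 : p ≠ 3)
    (hA : A.LiesOverPrime p) (hφ : A.IsFrobeniusAt φ p) :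
    Matrix.GeneralLinearGroup.det (ρ (φ ^ fdeg p)) = 1 := by
  rw [map_pow, map_pow, fdeg]
  split_ifs with h
  · rw [pow_one, (det_frob_iff hF D hp hp3 hA hφ).2 h]
  · have hall : ∀ u : (ZMod 3)ˣ, u ^ 2 = 1 := by decide
    exact hall _

/-- The place of `K` below has `p` to the residue degree residues. -/
theorem pnorm_below (hF : FieldData K L ρ ι) (D : KData K) (hp : p.Prime) (hp3 : p ≠ 3)
    (hA : A.LiesOverPrime p) {w : Place L} (hw : Under ι A w) (hpw : (p : 𝓞 L) ∈ w.asIdeal)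
    (hφ : A.IsFrobeniusAt φ p) : pnorm (below K w) = p ^ fdeg p := by
  set v := below K w
  have hle : pnorm v ≤ p ^ fdeg p := pnorm_le_of_pow v
    (Nat.one_lt_pow (by rw [fdeg]; split_ifs <;> norm_num) hp.one_lt)
    (pow_sub_mem_below hF hw (isFrobeniusAt_pow hφ _) (det_pow_fdeg hF D hp hp3 hA hφ))
  have hdvd : pnorm v ∣ p ^ 2 := by
    rw [pnorm, ← finrank_of_kData D, ← absNorm_span_natCast (K := K) p]
    exact Ideal.absNorm_dvd_absNorm_of_le
      ((Ideal.span_singleton_le_iff_mem _).2 (natCast_mem_below (K := K) hpw))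
  obtain ⟨i, hi, he⟩ := (Nat.dvd_prime_pow hp).1 hdvd
  have h1 := one_lt_pnorm' v
  rw [fdeg] at hle ⊢
  split_ifs at hle ⊢ with h
  · interval_cases i
    · simp at he; omega
    · simpa using he
    · exfalso
      rw [he, pow_one] at hle
      nlinarith [hp.one_lt]
  · interval_cases i
    · simp at he; omega
    · exfalso
      rw [pow_one] at he
      refine h ((det_frob_iff hF D hp hp3 hA hφ).1 (det_eq_one_of_congr (D := D) hF hp hp3 hA ?_))
      have h2 : algebraMap (𝓞 K) (𝓞 L) (D.e ⟨0, 1⟩ ^ p - D.e ⟨0, 1⟩) ∈ w.asIdeal := by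
        have := pow_pnorm_sub_mem v (D.e ⟨0, 1⟩)
        rw [he] at this
        exact this
      rw [hw, map_sub, map_sub, map_pow, map_pow] at h2
      have := add_mem (smul_sub_pow_mem hφ (omR ι D)) h2
      rwa [omR, sub_add_sub_cancel] at this
    · exact he

/-- The residue count upstairs is equal to or the cube of the one below. -/
lemma pnorm_cases (hc : Cyc3 K L σ) {v : Place K} {w : Place L} (h : LiesOver K L w v) :
    pnorm w = pnorm v ∨ pnorm w = pnorm v ^ 3 := by
  rcases hc.trichotomy h with ⟨-, -, hn, -⟩ | ⟨-, -, ⟨-, hn⟩ | ⟨-, hn⟩⟩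
  · exact Or.inl hn
  · exact Or.inl hn
  · exact Or.inr hn

/-- A cubic relation with a bounded trace bounds the eigenvalue. -/
lemma abs_le_of_cubic {t q T : ℝ} (hq : 0 < q) (hT : |T| ≤ 2)
    (h : Real.sqrt (q ^ 3) * T = t ^ 3 - 3 * q * t) : |t| ≤ 2 * Real.sqrt q := by
  set s := Real.sqrt q
  have hs : 0 < s := Real.sqrt_pos.2 hq
  have hs2 : q = s ^ 2 := (Real.sq_sqrt hq.le).symm
  rw [show Real.sqrt (q ^ 3) = s ^ 3 by
    rw [hs2, ← pow_mul, show 2 * 3 = 3 * 2 by norm_num, pow_mul, Real.sqrt_sq (by positivity)],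
    hs2] at h
  obtain ⟨hT1, hT2⟩ := abs_le.1 hT
  have hs3 : 0 < s ^ 3 := by positivity
  rw [abs_le]
  constructor <;> by_contra hc <;> push Not at hc
  · have h1 : s ^ 2 < t ^ 2 - 3 * s ^ 2 := by nlinarith
    nlinarith [mul_lt_mul_of_pos_left h1 (show 0 < -t by linarith)]
  · have h1 : s ^ 2 < t ^ 2 - 3 * s ^ 2 := by nlinarith
    nlinarith [mul_lt_mul_of_pos_left h1 (show 0 < t by linarith)]

variable {v3 : Place K} {lam : Place L → ℝ} {lamK : Place K → ℝ}

/-- The lifting clause of the descent: the eigenvalue upstairs is `t` or `t ^ 3 - 3 q t` as the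
residue field stays or grows. -/
def Lifts (K L : Type) [Field K] [NumberField K] [Field L] [NumberField L] [Algebra K L]
    (v3 : Place K) (lam : Place L → ℝ) (lamK : Place K → ℝ) : Prop :=
  ∀ v ∉ levK L v3, ∀ w : Place L, LiesOver K L w v →
    (pnorm w = pnorm v → lam w = lamK v) ∧
    (pnorm w ≠ pnorm v → lam w = lamK v ^ 3 - 3 * (pnorm v : ℝ) * lamK v)

/-- `lamK` is invariant under the automorphisms of `K` outside the level. -/
def StableK (L : Type) [Field L] [NumberField L] [Algebra K L]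
    (v3 : Place K) (lamK : Place K → ℝ) : Prop :=
  ∀ (g : K ≃+* K), ∀ v ∉ levK L v3, lamK (mapPlace g v) = lamK v

/-- If the eigenvalues at a place `w` of `L` lift those below and are lifted traces of Frobenius
powers fixing `L`, the eigenvalue below is read off the power `fdeg p` of a Frobenius at `p`. -/
theorem eigen_cases (hF : FieldData K L ρ ι) (hc : Cyc3 K L σ) (D : KData K) (hp : p.Prime)
    (hp3 : p ≠ 3) (hA : A.LiesOverPrime p) {w : Place L} (hw : Under ι A w)
    (hpw : (p : 𝓞 L) ∈ w.asIdeal) (hφ : A.IsFrobeniusAt φ p) (hram : below K w ∉ ramSet K L)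
    (hl : (pnorm w = pnorm (below K w) → lam w = lamK (below K w)) ∧
      (pnorm w ≠ pnorm (below K w) → lam w =
        lamK (below K w) ^ 3 - 3 * (pnorm (below K w) : ℝ) * lamK (below K w)))
    (hE : ∀ τ : Γℚ, (∀ x, τ (ι x) = ι x) → A.IsFrobeniusAt τ (pnorm w) →
      lam w = Real.sqrt (pnorm w) * (liftTr (ρ τ) : ℝ)) :
    (InQ8 (ρ (φ ^ fdeg p)) → lamK (below K w)
        = Real.sqrt ((p ^ fdeg p : ℕ) : ℝ) * (liftTr (ρ (φ ^ fdeg p)) : ℝ)) ∧
    (¬ InQ8 (ρ (φ ^ fdeg p)) → lamK (below K w) ^ 3 - 3 * ((p ^ fdeg p : ℕ) : ℝ) * lamK (below K w)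
        = Real.sqrt (((p ^ fdeg p : ℕ) : ℝ) ^ 3) * (liftTr (ρ (φ ^ fdeg p) ^ 3) : ℝ)) := by
  have := hc.galois
  have h3w : (3 : 𝓞 L) ∉ w.asIdeal := three_not_mem_of_prime hp hp3 hpw
  have hnv : pnorm (below K w) = p ^ fdeg p := pnorm_below hF D hp hp3 hA hw hpw hφ
  have hdet := det_pow_fdeg hF D hp hp3 hA hφ
  have hψ := isFrobeniusAt_pow hφ (fdeg p)
  set q := p ^ fdeg p
  set ψ := φ ^ fdeg p
  have hq1 : 1 < q := hnv ▸ one_lt_pnorm' _
  obtain ⟨hl1, hl2⟩ := hl
  -- a power in `Q₈` fixes `L`, so the residue field does not grow and the clause `hl1` applies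
  have hsplit : InQ8 (ρ ψ) → pnorm w = q := fun h8 => by
    have hle : pnorm w ≤ q := pnorm_le_of_pow w hq1 fun x => by
      rw [hw, map_sub, map_pow]
      have h := neg_mem (smul_sub_pow_mem hψ (RingOfIntegers.mapRingHom ι x))
      rw [neg_sub, show ψ • RingOfIntegers.mapRingHom ι x = RingOfIntegers.mapRingHom ι x from
        RingOfIntegers.ext ((hF.fixL ψ).2 h8 (x : L))] at h
      exact h
    rcases pnorm_cases hc (liesOver_below w) with h | h
    · rw [h, hnv]
    · rw [h, hnv] at hle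
      nlinarith [Nat.pow_le_pow_left hq1 2]
  refine ⟨fun h8 => ?_, fun h8 => ?_⟩
  · rw [← hl1 ((hsplit h8).trans hnv.symm),
      hE ψ ((hF.fixL ψ).2 h8) (by rw [hsplit h8]; exact hψ), hsplit h8]
  -- otherwise the place is inert and the cube of the power is in `Q₈`
  have hne : pnorm w ≠ pnorm (below K w) := fun e => by
    obtain ⟨a, ha⟩ := exists_restrict (L := L) (ι := ι) ((hF.fixK ψ).2 hdet)
    have h1 : a = 1 := eq_one_of_congr hc (liesOver_below w) hram h3w fun x => by
      rw [hw, map_sub,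
          show RingOfIntegers.mapRingHom ι (RingOfIntegers.mapRingEquiv (a : L ≃+* L) x)
          = ψ • RingOfIntegers.mapRingHom ι x from RingOfIntegers.ext (ha (x : L))]
      have h2 := pow_pnorm_sub_mem w x
      rw [e, hnv, hw, map_sub, map_pow] at h2
      have := add_mem (smul_sub_pow_mem hψ (RingOfIntegers.mapRingHom ι x)) h2
      rwa [sub_add_sub_cancel] at this
    exact h8 ((hF.fixL ψ).1 fun x => by rw [← ha x, h1]; rfl)
  have hw3 : pnorm w = q ^ 3 := by
    rw [← hnv]; exact (pnorm_cases hc (liesOver_below w)).resolve_left hne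
  have h83 : InQ8 (ρ (ψ ^ 3)) := by rw [map_pow]; exact inQ8_cube hdet
  have hval := hE (ψ ^ 3) ((hF.fixL _).2 h83) (by rw [hw3]; exact isFrobeniusAt_pow hψ 3)
  rw [hw3, hl2 hne, hnv, Nat.cast_pow q 3, map_pow] at hval
  exact hval

section Eigen

variable (hF : FieldData K L ρ ι) (hc : Cyc3 K L σ) (D : KData K) (d : DescentData K L v3 lam)
  (hE : IsRhoEigen L ρ ι lam) (hl : Lifts K L v3 lam lamK) (hst : StableK L v3 lamK)

include hF hc D d hE hl in
/-- The eigenvalue at the place of `K` below `A`: bounded by `2 √q`, and `√q` times the lifted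
trace of the Frobenius power when that lies in `Q₈`. -/
theorem eigen_below (hp : p.Prime) (hco : Nat.Coprime p (3 * lvl K L)) (hA : A.LiesOverPrime p)
    {w : Place L} (hw : Under ι A w) (hpw : (p : 𝓞 L) ∈ w.asIdeal) (hφ : A.IsFrobeniusAt φ p) :
    |lamK (below K w)| ≤ 2 * Real.sqrt ((p ^ fdeg p : ℕ) : ℝ) ∧
      (InQ8 (ρ (φ ^ fdeg p)) → lamK (below K w)
        = Real.sqrt ((p ^ fdeg p : ℕ) : ℝ) * (liftTr (ρ (φ ^ fdeg p)) : ℝ)) := by
  have hp3 : p ≠ 3 := ne_three_of_coprime hco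
  have hlev : below K w ∉ levK L v3 := not_mem_lev D d hco (natCast_mem_below hpw)
  obtain ⟨h1, h2⟩ := eigen_cases hF hc D hp hp3 hA hw hpw hφ
    (fun h => hlev (Set.mem_insert_of_mem _ h)) (hl _ hlev w (liesOver_below w))
    (hE w (three_not_mem_of_prime hp hp3 hpw) A fun x => hw.nonunits x)
  refine ⟨?_, h1⟩
  by_cases h8 : InQ8 (ρ (φ ^ fdeg p))
  · rw [h1 h8, abs_mul, abs_of_nonneg (Real.sqrt_nonneg _), mul_comm]
    exact mul_le_mul_of_nonneg_right (abs_liftTr_le _) (Real.sqrt_nonneg _)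
  · exact abs_le_of_cubic (Nat.cast_pos.2 (pow_pos hp.pos _)) (abs_liftTr_le _) (h2 h8).symm

include hF hc D d hE hl hst in
/-- **The eigenvalue at every place of `K` over a good prime**, read off at one place of `ℚ̄`. -/
theorem eigen_over (hp : p.Prime) (hco : Nat.Coprime p (3 * lvl K L)) (hA : A.LiesOverPrime p)
    (hφ : A.IsFrobeniusAt φ p) {v : Place K} (hv : (p : 𝓞 K) ∈ v.asIdeal) :
    |lamK v| ≤ 2 * Real.sqrt ((p ^ fdeg p : ℕ) : ℝ) ∧
      (InQ8 (ρ (φ ^ fdeg p)) → lamK v
        = Real.sqrt ((p ^ fdeg p : ℕ) : ℝ) * (liftTr (ρ (φ ^ fdeg p)) : ℝ)) := by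
  obtain ⟨w, hw, hpw⟩ := exists_under ι hp hA
  have hpv := natCast_mem_below (K := K) hpw
  have e : lamK v = lamK (below K w) := by
    rcases eq_or_eq_cjK D hp hpv hv with rfl | rfl
    · rfl
    · exact hst _ _ (not_mem_lev D d hco hpv)
  rw [e]
  exact eigen_below hF hc D d hE hl hp hco hA hw hpw hφ

end Eigen

end Fermat.LT3
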