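import Fermat.Agent.LT3.Main.Conj
import Fermat.Agent.LT.Targets
import Fermat.Agent.CFT.Density.InertiaLift

/-!
# Places of `ℚ̄`, inertia and the ramified places of `L/K`

Inertia away from `3` fixes `K`; it fixes `L` outside the ramified places.
-/

set_option autoImplicit false
open IsDedekindDomain NumberField QuadraticAlgebra Fermat.CFT
open scoped Classical Pointwise

local notation "Γℚ" => (AlgebraicClosure ℚ ≃ₐ[ℚ] AlgebraicClosure ℚ)
local notation "ℚbar" => AlgebraicClosure ℚ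

namespace Fermat.LT3
open Fermat.LT

variable {K L : Type} [Field K] [NumberField K] [Field L] [NumberField L] [Algebra K L]
  {ρ : Γℚ →* GL (Fin 2) (ZMod 3)} {ι : L →+* ℚbar}

/-- `w` is cut out by `A`. -/
def Under (ι : L →+* ℚbar) (A : ValuationSubring ℚbar) (w : Place L) : Prop :=
  ∀ x : 𝓞 L, x ∈ w.asIdeal ↔ RingOfIntegers.mapRingHom ι x ∈ primeOf A

omit [NumberField L] in
/-- A place cut out by `A` is the set of integers sent to non-units of `A`. -/
lemma Under.nonunits {A : ValuationSubring ℚbar} {w : Place L} (h : Under ι A w) (x : 𝓞 L) :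
    x ∈ w.asIdeal ↔ ι (x : L) ∈ A.nonunits := (h x).trans mem_primeOf

/-- A place of `ℚ̄` over `p` cuts out a place of `L` containing `p`. -/
theorem exists_under (ι : L →+* ℚbar) {p : ℕ} (hp : p.Prime) {A : ValuationSubring ℚbar}
    (hA : A.LiesOverPrime p) : ∃ w : Place L, Under ι A w ∧ (p : 𝓞 L) ∈ w.asIdeal := by
  have h : (p : 𝓞 L) ∈ (primeOf A).comap (RingOfIntegers.mapRingHom ι) := by
    rw [Ideal.mem_comap, map_natCast]; exact natCast_mem_primeOf hA
  exact ⟨⟨_, Ideal.IsPrime.comap _, ne_bot_of_natCast_mem hp h⟩, fun x => Iff.rfl, h⟩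

/-- A natural number in a place of `L` is in the place of `K` below. -/
lemma natCast_mem_below {w : Place L} {p : ℕ} (h : (p : 𝓞 L) ∈ w.asIdeal) :
    (p : 𝓞 K) ∈ (below K w).asIdeal := by
  change (p : 𝓞 K) ∈ w.asIdeal.under (𝓞 K)
  rwa [Ideal.under_def, Ideal.mem_comap, map_natCast]

/-- `pnorm` counts the residues of a place. -/
lemma natCard_quot {F : Type*} [Field F] [NumberField F] (v : Place F) :
    Nat.card (𝓞 F ⧸ v.asIdeal) = pnorm v := by
  rw [pnorm, Ideal.absNorm_apply, Submodule.cardQuot_apply]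

/-- A place over another prime does not contain `3`. -/
lemma three_not_mem_of_prime {F : Type*} [Field F] [NumberField F] {v : Place F} {p : ℕ}
    (hp : p.Prime) (hp3 : p ≠ 3) (h : (p : 𝓞 F) ∈ v.asIdeal) : (3 : 𝓞 F) ∉ v.asIdeal := by
  simpa using natCast_mem_of_coprime ((Nat.coprime_primes hp Nat.prime_three).2 hp3) h

section Fixing

variable (D : KData K) (ι)

/-- `ω` in `ℚ̄`. -/
noncomputable def omR : 𝓞 ℚbar :=
  RingOfIntegers.mapRingHom ι (algebraMap (𝓞 K) (𝓞 L) (D.e ⟨0, 1⟩))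

omit [NumberField L] in
/-- `ω ^ 2 = ω - 1`. -/
lemma omR_sq : omR ι D ^ 2 = omR ι D - 1 := by
  have h : ((⟨0, 1⟩ : EI)) ^ 2 = ⟨0, 1⟩ - 1 := by
    rw [sq]; apply QuadraticAlgebra.ext <;> simp
  rw [omR, ← map_pow, ← map_pow, ← map_pow, h, map_sub, map_one, map_sub, map_one, map_sub, map_one]

variable {ι}

omit [NumberField L] in
/-- An automorphism fixing `ω` fixes `K`. -/
lemma fix_K_of_fix {τ : Γℚ} (h : τ • omR ι D = omR ι D) (x : K) :
    τ (ι (algebraMap K L x)) = ι (algebraMap K L x) := by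
  set f : EI →+* 𝓞 ℚbar :=
    (RingOfIntegers.mapRingHom ι).comp ((algebraMap (𝓞 K) (𝓞 L)).comp D.e.toRingHom) with hf
  have hEI : ∀ z : EI, τ • f z = f z := fun z => by
    have e : z = (z.re : EI) + (z.im : EI) * ⟨0, 1⟩ := by apply QuadraticAlgebra.ext <;> simp
    have hint : ∀ n : ℤ, τ • f (n : EI) = f (n : EI) := fun n => by
      rw [map_intCast]
      exact map_intCast (MulSemiringAction.toRingHom Γℚ (𝓞 ℚbar) τ) n
    rw [e, map_add, map_mul, smul_add, smul_mul', hint, hint]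
    congr 2
  have hint : ∀ a : 𝓞 K, τ (ι (algebraMap K L (a : K))) = ι (algebraMap K L (a : K)) := fun a => by
    have := congrArg (fun z : 𝓞 ℚbar => (z : ℚbar)) (hEI (D.e.symm a))
    have e : ((algebraMap (𝓞 K) (𝓞 L) a : 𝓞 L) : L) = algebraMap K L (a : K) := rfl
    simp [hf, coe_smul_integer] at this
    rw [e] at this
    exact this
  obtain ⟨a, b, -, rfl⟩ := IsFractionRing.div_surjective (A := 𝓞 K) x
  rw [map_div₀, map_div₀, map_div₀]
  exact congrArg₂ (· / ·) (hint a) (hint b)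

omit [NumberField L] in
/-- If `τ` moves `ω` to something congruent to it then `3` is in the prime of `A`. -/
lemma three_mem_of_moved {A : ValuationSubring ℚbar} {τ : Γℚ}
    (h : τ • omR ι D - omR ι D ∈ primeOf A) (hne : τ • omR ι D ≠ omR ι D) :
    (3 : 𝓞 ℚbar) ∈ primeOf A := by
  set R := omR ι D with hR
  have h1 : R ^ 2 = R - 1 := omR_sq ι D
  have h2 : (τ • R) ^ 2 = τ • R - 1 := by
    rw [← smul_pow', h1, smul_sub, smul_one]
  have h3 : (τ • R - R) * (τ • R + R - 1) = 0 := by linear_combination h2 - h1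
  have h4 : τ • R = 1 - R := by
    linear_combination (mul_eq_zero.1 h3).resolve_left (sub_ne_zero.2 hne)
  have h5 := (primeOf A).mul_mem_left (-(τ • R - R)) h
  rwa [show -(τ • R - R) * (τ • R - R) = (3 : 𝓞 ℚbar) by
    rw [h4]; linear_combination (-4) * h1] at h5

variable {D}

omit [NumberField L] in
/-- **No inertia in `K` away from `3`.** An element fixing `ω` modulo a place over `p ≠ 3` has image
of determinant one. -/
theorem det_eq_one_of_congr (hF : FieldData K L ρ ι) {p : ℕ} (hp : p.Prime) (hp3 : p ≠ 3)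
    {A : ValuationSubring ℚbar} (hA : A.LiesOverPrime p) {τ : Γℚ}
    (h : τ • omR ι D - omR ι D ∈ primeOf A) : Matrix.GeneralLinearGroup.det (ρ τ) = 1 := by
  refine (hF.fixK τ).1 (fix_K_of_fix D ?_)
  by_contra hne
  have h3 : ((3 : ℤ) : 𝓞 ℚbar) ∈ primeOf A := by exact_mod_cast three_mem_of_moved D h hne
  have := dvd_of_intCast_mem_primeOf hp hA h3
  exact hp3 ((Nat.prime_dvd_prime_iff_eq hp Nat.prime_three).1 (by exact_mod_cast this))

end Fixing

omit [NumberField K] [NumberField L] in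
/-- The automorphism of `L` induced by an element fixing `K`. -/
theorem exists_restrict [IsGalois K L] {τ : Γℚ}
    (hτ : ∀ x : K, τ (ι (algebraMap K L x)) = ι (algebraMap K L x)) :
    ∃ ψ : L ≃ₐ[K] L, ∀ x, ι (ψ x) = τ (ι x) := by
  let : Algebra L ℚbar := ι.toAlgebra
  let : Algebra K ℚbar := (ι.comp (algebraMap K L)).toAlgebra
  have : IsScalarTower K L ℚbar := IsScalarTower.of_algebraMap_eq' rfl
  let τK : ℚbar ≃ₐ[K] ℚbar := AlgEquiv.ofRingEquiv (f := τ.toRingEquiv) hτ
  exact ⟨τK.restrictNormal L, fun x => τK.restrictNormal_commutes L x⟩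

variable {σ : L ≃ₐ[K] L}

/-- Fixing the residues at an unramified place away from `3` is trivial. -/
theorem eq_one_of_congr (hc : Cyc3 K L σ) {v : Place K} {w : Place L} (h : LiesOver K L w v)
    (hv : v ∉ ramSet K L) (h3 : (3 : 𝓞 L) ∉ w.asIdeal) {ψ : L ≃ₐ[K] L}
    (hψ : ∀ x : 𝓞 L, RingOfIntegers.mapRingEquiv (ψ : L ≃+* L) x - x ∈ w.asIdeal) : ψ = 1 := by
  by_contra hne
  set m : (L ≃ₐ[K] L) → 𝓞 L → 𝓞 L := fun g => RingOfIntegers.mapRingEquiv (g : L ≃+* L) with hm
  have hmul : ∀ g g' x, m (g * g') x = m g (m g' x) := fun g g' x => RingOfIntegers.ext rfl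
  have hσ : ∀ x, m σ x - x ∈ w.asIdeal := by
    rcases hc.mem_cases ψ with rfl | rfl | rfl
    · exact absurd rfl hne
    · exact hψ
    · intro x
      have e : m σ x = m (σ * σ) (m (σ * σ) x) := by
        rw [← hmul, show σ * σ * (σ * σ) = σ ^ 3 * σ by
          simp only [pow_succ, pow_zero, one_mul, mul_assoc], hc.pow_three, one_mul]
      have := add_mem (hψ (m (σ * σ) x)) (hψ x)
      rw [e]
      simpa [hm] using this
  have hfix : mapPlace (σ : L ≃+* L) w = w := by
    refine HeightOneSpectrum.ext (SetLike.ext fun a => ?_)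
    obtain ⟨b, rfl⟩ := (RingOfIntegers.mapRingEquiv (σ : L ≃+* L)).surjective a
    rw [mapPlace_asIdeal]
    refine ⟨fun hb => ?_, fun ha => ?_⟩
    · simpa using add_mem (hσ b) hb
    · simpa [hm] using sub_mem ha (hσ b)
  rcases hc.trichotomy h with ⟨-, -, -, hmv⟩ | ⟨-, -, ⟨he, -⟩ | ⟨-, hn⟩⟩
  · exact hmv hfix
  · exact hv ((hc.mem_ramSet_iff h).2 he)
  -- inert: the residue field of `w` comes from the trace
  have hmax := w.isMaximal
  obtain ⟨t, i, hi, ht⟩ := hmax.exists_inv h3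
  have hw : w.asIdeal.under (𝓞 K) = v.asIdeal := h
  let f : (𝓞 K ⧸ v.asIdeal) →+* (𝓞 L ⧸ w.asIdeal) :=
    Ideal.quotientMap w.asIdeal (algebraMap (𝓞 K) (𝓞 L)) (le_of_eq hw.symm)
  have hsurj : Function.Surjective f := fun z => by
    obtain ⟨x, rfl⟩ := Ideal.Quotient.mk_surjective z
    set y := x * t
    set T := y + m σ y + m σ (m σ y) with hT
    have hTfix : σ (T : L) = (T : L) := by
      have e : ∀ a : 𝓞 L, ((m σ a : 𝓞 L) : L) = σ (a : L) := fun a => rfl
      rw [hT]
      push_cast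
      simp only [e, map_add, hc.apply_three]
      ring
    obtain ⟨k, hk⟩ := hc.fix hTfix
    have hkint : IsIntegral ℤ k :=
      (isIntegral_algebraMap_iff (R := ℤ) (algebraMap K L).injective).1 (hk ▸ T.isIntegral_coe)
    refine ⟨Ideal.Quotient.mk _ ⟨k, hkint⟩, ?_⟩
    rw [Ideal.quotientMap_mk, Ideal.Quotient.eq,
      show algebraMap (𝓞 K) (𝓞 L) ⟨k, hkint⟩ = T from RingOfIntegers.ext hk]
    rw [show T - x = (m σ y - y) + ((m σ (m σ y) - m σ y) + (m σ y - y)) + x * -i by
      rw [hT]; simp only [y]; linear_combination x * ht]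
    exact add_mem (add_mem (hσ y) (add_mem (hσ _) (hσ y))) (Ideal.mul_mem_left _ _ (neg_mem hi))
  have : Finite (𝓞 K ⧸ v.asIdeal) := Ideal.finiteQuotientOfFreeOfNeBot _ v.ne_bot
  have : Nontrivial (𝓞 K ⧸ v.asIdeal) := Ideal.Quotient.nontrivial_iff.2 v.isPrime.ne_top
  have hle := Nat.card_le_card_of_surjective f hsurj
  rw [natCard_quot, natCard_quot, hn] at hle
  have h2 : 2 ≤ pnorm v := by rw [← natCard_quot]; exact Finite.one_lt_card
  nlinarith [Nat.pow_le_pow_left h2 2]

/-- **Inertia fixes `L` outside the ramified places.** -/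
theorem inQ8_of_inertia (hF : FieldData K L ρ ι) (hc : Cyc3 K L σ) (D : KData K) {p : ℕ}
    (hp : p.Prime) (hp3 : p ≠ 3) {A : ValuationSubring ℚbar} (hA : A.LiesOverPrime p) {w : Place L}
    (hw : Under ι A w) (hpw : (p : 𝓞 L) ∈ w.asIdeal) (hv : below K w ∉ ramSet K L) {τ : Γℚ}
    (hτ : ∀ x : 𝓞 ℚbar, τ • x - x ∈ primeOf A) : InQ8 (ρ τ) := by
  have := hc.galois
  obtain ⟨ψ, hψ⟩ := exists_restrict (L := L) (ι := ι)
    ((hF.fixK τ).2 (det_eq_one_of_congr (D := D) hF hp hp3 hA (hτ _)))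
  have h1 : ψ = 1 := eq_one_of_congr hc (liesOver_below w) hv (three_not_mem_of_prime hp hp3 hpw)
    fun x => by
      rw [hw, map_sub,
        show RingOfIntegers.mapRingHom ι (RingOfIntegers.mapRingEquiv (ψ : L ≃+* L) x)
          = τ • RingOfIntegers.mapRingHom ι x from RingOfIntegers.ext (hψ (x : L))]
      exact hτ _
  refine (hF.fixL τ).1 fun x => ?_
  rw [← hψ x, h1]
  rfl

end Fermat.LT3
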