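import Fermat.Agent.LT3.Series.Theta
import Fermat.Agent.RM.Export

/-!
# The lifts in the language of the Weil module

The two lifts of `Series/Theta` as equivariant maps out of the module of functions on the norm
form, in the shape of `RM.WeightOneData`, for `Main/Lift`.
-/

set_option autoImplicit false
open Matrix QuadraticAlgebra
open scoped ComplexConjugate MatrixGroups ModularForm

namespace Fermat.LT3
open Fermat.LT

variable {E : ℕ} [NeZero E]

/-- The two notations for the additive character modulo `E` agree. -/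
lemma eE_eq_ee (a : ZMod E) : RM.eE a = ee E a := by
  conv_rhs => rw [← ZMod.natCast_zmod_val a, ← Int.cast_natCast, ee_int]
  rw [RM.eE]
  push_cast
  rw [mul_div_assoc]

omit [NeZero E] in
/-- The two notations for the norm form agree. -/
lemma qnorm_eq_cnorm (x : CP E) : RM.qnorm x = cnorm x := rfl

omit [NeZero E] in
/-- The two notations for the trace pairing agree. -/
lemma qpair_eq_cpair (x y : CP E) : RM.qpair x y = cpair x y := by
  rw [cpair_eq_sub]; rfl

/-- Conjugation negates the argument of the additive character. -/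
lemma conj_ee (a : ZMod E) : conj (ee E a) = ee E (-a) := by
  conv_lhs => rw [← ZMod.natCast_zmod_val a, ← Int.cast_natCast, ee_int]
  conv_rhs => rw [← ZMod.natCast_zmod_val a, ← Int.cast_natCast, ← Int.cast_neg, ee_int]
  rw [← Complex.exp_conj]
  congr 1
  simp only [map_mul, map_div₀, map_ofNat, Complex.conj_ofReal, Complex.conj_I, map_intCast,
    map_natCast, Int.cast_neg]
  ring

variable [Fact (Nat.Coprime E 3)]

omit [NeZero E] in
/-- `inv3 * inv3` is the inverse of `9` modulo `E`. -/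
lemma nine_mul_inv9 : (9 : ZMod E) * (inv3 * inv3) = 1 := by
  linear_combination (3 * inv3 + 1) * three_mul_inv3 (E := E)

omit [NeZero E] [Fact (E.Coprime 3)] in
/-- The entries of `conj9` of the inverse of an element of `Γ₁(27)`. -/
lemma conj9_inv {γ : SL(2, ℤ)} (hγ : γ ∈ RM.topLevel 1) {g : Matrix (Fin 2) (Fin 2) (ZMod E)}
    (hg : RM.ModEqMat E γ g) :
    InG27 γ⁻¹ ∧ InG3 (conj9 γ⁻¹) ∧ (conj9 γ⁻¹ 0 0 : ZMod E) = g 1 1 ∧
      (conj9 γ⁻¹ 0 1 : ZMod E) = -(9 * g 0 1) ∧ (9 : ZMod E) * (conj9 γ⁻¹ 1 0 : ZMod E) = -g 1 0 ∧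
      (conj9 γ⁻¹ 1 1 : ZMod E) = g 0 0 := by
  have h := inG27_of_top (inv_mem hγ)
  obtain ⟨-, ⟨j, hj⟩, -⟩ := h.dvd
  have e : (γ⁻¹ : SL(2, ℤ)) 1 0 / 9 = 3 * j := by omega
  have he : ∀ i k, ((γ i k : ℤ) : ZMod E) = g i k := fun i k => congrFun (congrFun hg i) k
  rw [Matrix.SpecialLinearGroup.coe_inv, Matrix.adjugate_fin_two] at hj e
  simp at hj e
  refine ⟨h, h.conj9_mem, ?_, ?_, ?_, ?_⟩ <;> rw [conj9_coe h]
  · rw [← he]; simp [Matrix.SpecialLinearGroup.coe_inv, Matrix.adjugate_fin_two]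
  · rw [← he]; simp [Matrix.SpecialLinearGroup.coe_inv, Matrix.adjugate_fin_two]
  · rw [← he]
    simp [Matrix.SpecialLinearGroup.coe_inv, Matrix.adjugate_fin_two, e]
    have h2 : ((γ 1 0 : ℤ) : ZMod E) = -((27 * j : ℤ) : ZMod E) := by
      rw [← hj, Int.cast_neg, neg_neg]
    rw [h2]; push_cast; ring
  · rw [← he]; simp [Matrix.SpecialLinearGroup.coe_inv, Matrix.adjugate_fin_two]

omit [NeZero E] in
/-- Dividing the variable by `3` divides the norm by `9`. -/
lemma cnorm_tri (x : CP E) :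
    (9 : ZMod E) * cnorm ((inv3 * x.1, inv3 * x.2) : CP E) = cnorm x := by
  simp only [cnorm, qh]
  linear_combination (x.1 ^ 2 + x.1 * x.2 + x.2 ^ 2) * nine_mul_inv9 (E := E)

variable {γ : SL(2, ℤ)} (hγ : γ ∈ RM.topLevel 1)
include hγ

/-- The inverse of an element upper triangular modulo `E` acts by a phase and a scaling. -/
lemma wW_inv_of_zero {g : Matrix (Fin 2) (Fin 2) (ZMod E)} (hg : RM.ModEqMat E γ g)
    (h10 : g 1 0 = 0) (φ : CP E → ℂ) (x : CP E) :
    wW γ⁻¹ φ x = ee E (-(g 0 0 * g 0 1 * cnorm x)) * φ (g 0 0 * x.1, g 0 0 * x.2) := by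
  obtain ⟨-, h3, -, e01, e10, e11⟩ := conj9_inv hγ hg
  have hc : (conj9 γ⁻¹ 1 0 : ZMod E) = 0 := by
    rw [h10, neg_zero] at e10
    linear_combination (inv3 * inv3) * e10 - (conj9 γ⁻¹ 1 0 : ZMod E) * nine_mul_inv9 (E := E)
  simp only [wW, LinearMap.comp_apply, wop_gamma0 h3 hc]
  simp only [triInvL, triL, LinearMap.coe_mk, AddHom.coe_mk, triInv, tri, diagLin_apply, e01, e11]
  congr 2
  · linear_combination (-(g 0 0 * g 0 1)) * cnorm_tri x
  · ext
    · linear_combination (g 0 0 * x.1) * three_mul_inv3 (E := E)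
    · linear_combination (g 0 0 * x.2) * three_mul_inv3 (E := E)

/-- The inverse of the inversion acts as the finite Fourier transform. -/
lemma wW_inv_of_antidiag (hg : RM.ModEqMat E γ !![0, -1; 1, 0]) (φ : CP E → ℂ) (x : CP E) :
    wW γ⁻¹ φ x = gauss E / (E : ℂ) ^ 2 * ∑ y : CP E, ee E (cpair x y) * φ y := by
  obtain ⟨-, h3, e00, e01, -, e11⟩ := conj9_inv hγ hg
  have hop := wop_antidiag h3 (by simpa using e00) (by simpa using e11)
  simp only [wW, LinearMap.comp_apply, triInvL, triL, LinearMap.coe_mk, AddHom.coe_mk, triInv, hop,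
    e01]
  congr 1
  let e : CP E ≃ CP E := ⟨fun y => (3 * y.1, 3 * y.2), fun y => (inv3 * y.1, inv3 * y.2),
    fun y => by
      ext <;> simp [← mul_assoc, mul_comm inv3 (3 : ZMod E), three_mul_inv3],
    fun y => by ext <;> simp [← mul_assoc, three_mul_inv3]⟩
  refine Fintype.sum_equiv e _ _ fun y => ?_
  simp only [e, Equiv.coe_fn_mk, tri]
  congr 2
  simp only [cpair, of_apply, cons_val', cons_val_zero, cons_val_one, empty_val', cons_val_fin_one]
  linear_combination (3 * (2 * x.1 * y.1 + x.1 * y.2 + x.2 * y.1 + 2 * x.2 * y.2))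
    * three_mul_inv3 (E := E)

omit hγ

/-- The representation `γ ↦ R γ⁻¹` attached to operators `R` reversing products. -/
noncomputable def weilHom (R : SL(2, ℤ) → COp E)
    (hmul : ∀ γ δ, InG27 γ → InG27 δ → R (γ * δ) = R δ ∘ₗ R γ) (hone : R 1 = LinearMap.id) :
    RM.topLevel 1 →* Module.End ℂ (RM.QR E → ℂ) where
  toFun γ := R (γ : SL(2, ℤ))⁻¹
  map_one' := by rw [Subgroup.coe_one, inv_one, hone]; rfl
  map_mul' γ δ := by
    rw [Subgroup.coe_mul, _root_.mul_inv_rev,
      hmul _ _ (inG27_of_top (inv_mem δ.2)) (inG27_of_top (inv_mem γ.2))]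
    rfl

/-- The conjugate operators reverse products. -/
lemma wWc_mul {γ δ : SL(2, ℤ)} (hγ : InG27 γ) (hδ : InG27 δ) :
    wWc (E := E) (γ * δ) = wWc δ ∘ₗ wWc γ := by
  refine LinearMap.ext fun φ => funext fun x => ?_
  simp only [wWc, LinearMap.comp_apply, LinearMap.coe_mk, AddHom.coe_mk, wW_mul hγ hδ,
    Complex.conj_conj]

/-- The conjugate operators are trivial on elements congruent to `1` modulo `E`. -/
lemma wWc_one_of_mem {γ : SL(2, ℤ)} (h : InG27 γ) (hE : γ ∈ CongruenceSubgroup.Gamma E) :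
    wWc (E := E) γ = LinearMap.id := by
  refine LinearMap.ext fun φ => funext fun x => ?_
  simp [wWc, wW_one_of_mem h hE]

/-- The operators are trivial on elements congruent to `1` modulo `E`, as linear maps. -/
lemma wW_one_of_mem' {γ : SL(2, ℤ)} (h : InG27 γ) (hE : γ ∈ CongruenceSubgroup.Gamma E) :
    wW (E := E) γ = LinearMap.id := LinearMap.ext fun φ => wW_one_of_mem h hE φ

/-- The representation of the first lift. -/
noncomputable def weil1 : RM.topLevel 1 →* Module.End ℂ (RM.QR E → ℂ) :=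
  weilHom wW (fun _ _ => wW_mul) (wW_one_of_mem' (inG27_of_top (one_mem _)) (one_mem _))

/-- The representation of the second lift. -/
noncomputable def weil2 : RM.topLevel 1 →* Module.End ℂ (RM.QR E → ℂ) :=
  weilHom wWc (fun _ _ => wWc_mul) (wWc_one_of_mem (inG27_of_top (one_mem _)) (one_mem _))

/-- The first representation at `γ` is the operator of `γ⁻¹`. -/
lemma weil1_apply (γ : RM.topLevel 1) : weil1 (E := E) γ = wW (γ : SL(2, ℤ))⁻¹ := rfl

/-- The second representation at `γ` is the conjugate operator of `γ⁻¹`. -/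
lemma weil2_apply (γ : RM.topLevel 1) : weil2 (E := E) γ = wWc (γ : SL(2, ℤ))⁻¹ := rfl

/-- The first representation is trivial on `Γ(E)`. -/
lemma weil1_one (γ : RM.topLevel 1) (hE : (γ : SL(2, ℤ)) ∈ CongruenceSubgroup.Gamma E) :
    weil1 (E := E) γ = 1 :=
  wW_one_of_mem' (inG27_of_top (inv_mem γ.2)) (inv_mem hE)

/-- The second representation is trivial on `Γ(E)`. -/
lemma weil2_one (γ : RM.topLevel 1) (hE : (γ : SL(2, ℤ)) ∈ CongruenceSubgroup.Gamma E) :
    weil2 (E := E) γ = 1 :=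
  wWc_one_of_mem (inG27_of_top (inv_mem γ.2)) (inv_mem hE)

section Laws

variable (γ : RM.topLevel 1)

/-- The first representation sends translations to phases. -/
lemma weil1_T (b : ZMod E) (hg : RM.ModEqMat E γ !![1, b; 0, 1]) (φ : CP E → ℂ) (x : CP E) :
    weil1 γ φ x = RM.eE (((-1 : (ZMod E)ˣ) : ZMod E) * b * RM.qnorm x) * φ x := by
  rw [weil1_apply, wW_inv_of_zero γ.2 hg (by simp), eE_eq_ee, qnorm_eq_cnorm]
  simp

/-- The second representation sends translations to phases. -/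
lemma weil2_T (b : ZMod E) (hg : RM.ModEqMat E γ !![1, b; 0, 1]) (φ : CP E → ℂ) (x : CP E) :
    weil2 γ φ x = RM.eE (((1 : (ZMod E)ˣ) : ZMod E) * b * RM.qnorm x) * φ x := by
  rw [weil2_apply, eE_eq_ee, qnorm_eq_cnorm]
  simp only [wWc, LinearMap.coe_mk, AddHom.coe_mk, wW_inv_of_zero γ.2 hg (by simp), map_mul,
    Complex.conj_conj, conj_ee]
  simp

omit [NeZero E] [Fact (E.Coprime 3)] in
/-- The corner of an element diagonal modulo `E` is a unit. -/
lemma exists_unit_of_diag {t u : ZMod E} (hg : RM.ModEqMat E γ !![t, 0; 0, u]) :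
    ∃ s : (ZMod E)ˣ, (s : ZMod E) = t := by
  have h : ∀ i k, (((γ : SL(2, ℤ)) i k : ℤ) : ZMod E) =
      (!![t, 0; 0, u] : Matrix (Fin 2) (Fin 2) _) i k :=
    fun i k => congrFun (congrFun hg i) k
  have hdet := congrArg (fun z : ℤ => (z : ZMod E)) (γ : SL(2, ℤ)).det_coe
  simp only [Matrix.det_fin_two, Int.cast_sub, Int.cast_mul, Int.cast_one, h] at hdet
  refine ⟨⟨t, u, ?_, ?_⟩, rfl⟩ <;> simp at hdet
  · exact hdet
  · rw [mul_comm]; exact hdet

/-- The first representation sends diagonal elements to scalings. -/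
lemma weil1_diag (t u : ZMod E) (hg : RM.ModEqMat E γ !![t, 0; 0, u]) :
    ∃ s : (ZMod E)ˣ, ∀ (φ : CP E → ℂ) x,
      weil1 γ φ x = φ ((s : ZMod E) * x.1, (s : ZMod E) * x.2) := by
  obtain ⟨s, hs⟩ := exists_unit_of_diag γ hg
  refine ⟨s, fun φ x => ?_⟩
  rw [weil1_apply, wW_inv_of_zero γ.2 hg (by simp), hs]
  simp [ee_zero]

/-- The second representation sends diagonal elements to scalings. -/
lemma weil2_diag (t u : ZMod E) (hg : RM.ModEqMat E γ !![t, 0; 0, u]) :
    ∃ s : (ZMod E)ˣ, ∀ (φ : CP E → ℂ) x,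
      weil2 γ φ x = φ ((s : ZMod E) * x.1, (s : ZMod E) * x.2) := by
  obtain ⟨s, hs⟩ := exists_unit_of_diag γ hg
  refine ⟨s, fun φ x => ?_⟩
  rw [weil2_apply]
  simp only [wWc, LinearMap.coe_mk, AddHom.coe_mk, wW_inv_of_zero γ.2 hg (by simp), hs]
  simp [ee_zero]

/-- The first representation sends the inversion to a Fourier transform. -/
lemma weil1_S (hg : RM.ModEqMat E γ !![0, -1; 1, 0]) :
    ∃ c : (ZMod E)ˣ, ∀ (φ : CP E → ℂ) x, weil1 γ φ x =
      gauss E / (E : ℂ) / (E : ℂ) * ∑ᶠ y : RM.QR E, RM.eE ((c : ZMod E) * RM.qpair x y) * φ y := by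
  refine ⟨1, fun φ x => ?_⟩
  rw [weil1_apply, wW_inv_of_antidiag γ.2 hg, finsum_eq_sum_of_fintype, div_div, ← pow_two]
  congr 1
  exact Finset.sum_congr rfl fun y _ => by rw [eE_eq_ee, qpair_eq_cpair, Units.val_one, one_mul]

/-- The second representation sends the inversion to a Fourier transform. -/
lemma weil2_S (hg : RM.ModEqMat E γ !![0, -1; 1, 0]) :
    ∃ c : (ZMod E)ˣ, ∀ (φ : CP E → ℂ) x, weil2 γ φ x =
      conj (gauss E / (E : ℂ)) / (E : ℂ) *
        ∑ᶠ y : RM.QR E, RM.eE ((c : ZMod E) * RM.qpair x y) * φ y := by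
  refine ⟨-1, fun φ x => ?_⟩
  rw [weil2_apply, finsum_eq_sum_of_fintype]
  simp only [wWc, LinearMap.coe_mk, AddHom.coe_mk, wW_inv_of_antidiag γ.2 hg, map_mul, map_sum,
    map_div₀, map_pow, map_natCast, Complex.conj_conj, conj_ee]
  rw [div_div, ← pow_two]
  congr 1
  exact Finset.sum_congr rfl fun y _ => by
    rw [eE_eq_ee, qpair_eq_cpair, Units.val_neg, Units.val_one, neg_one_mul]

/-- The sign of the first representation is a fourth root of unity. -/
lemma sgn1_pow : (gauss E / (E : ℂ)) ^ 4 = 1 := by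
  rw [show 4 = 2 * 2 from rfl, pow_mul, gauss_sq, one_pow]

/-- The sign of the second representation is a fourth root of unity. -/
lemma sgn2_pow : conj (gauss E / (E : ℂ)) ^ 4 = 1 := by
  rw [← map_pow, sgn1_pow, map_one]

/-- The first lift turns the representation into the slash action of the inverse. -/
lemma equiv1 (A : Auto E) (cls : Cl3) (h : HolCase A cls) (φ : CP E → ℂ) :
    ⇑(th1 A cls h (weil1 γ φ)) = (⇑(th1 A cls h φ)) ∣[(1 : ℤ)] ((γ : SL(2, ℤ))⁻¹) := by
  rw [weil1_apply, (th_slash A cls (inG27_of_top (inv_mem γ.2)) φ).1 h]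

/-- The second lift turns the representation into the slash action of the inverse. -/
lemma equiv2 (A : Auto E) (cls : Cl3) (φ : CP E → ℂ) :
    ⇑(th2 A cls (weil2 γ φ)) = (⇑(th2 A cls φ)) ∣[(1 : ℤ)] ((γ : SL(2, ℤ))⁻¹) := by
  rw [weil2_apply, (th_slash A cls (inG27_of_top (inv_mem γ.2)) φ).2]

end Laws

section Chr

omit [Fact (Nat.Coprime E 3)]
variable (A : TAuto E)

/-- The character on the norm one classes. -/
noncomputable def chrQ (u : RM.QR E) : ℂ := A.θ ⟨u.1, u.2⟩

/-- A class of norm one is a unit. -/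
lemma isUnit_of_qnorm {u : RM.QR E} (hu : RM.qnorm u = 1) :
    IsUnit (⟨u.1, u.2⟩ : ER (ZMod E)) := by
  refine isUnit_iff_exists_inv.2 ⟨star ⟨u.1, u.2⟩, ?_⟩
  rw [← QuadraticAlgebra.algebraMap_norm_eq_mul_star]
  have e : QuadraticAlgebra.norm (⟨u.1, u.2⟩ : ER (ZMod E)) = 1 :=
    (cnorm_prER (⟨u.1, u.2⟩ : ER (ZMod E))).symm.trans hu
  rw [e, map_one]

/-- The character is cubic on norm one classes. -/
lemma chrQ_cube {u : RM.QR E} (hu : RM.qnorm u = 1) : chrQ A u ^ 3 = 1 := by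
  obtain ⟨v, hv⟩ := isUnit_of_qnorm hu
  rw [chrQ, ← hv, ← MulChar.pow_apply' _ three_ne_zero, A.θ_cube, MulChar.one_apply_coe]

end Chr

end Fermat.LT3
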