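import Fermat.Agent.LT3.Main.Eig
import Fermat.Agent.LT3.Main.Module

/-!
# One of the two lifts gives the weight one data

`data_of_tauto`: for the typed function on `K` matching the descended eigenvalues, one of its two
theta lifts to `ℚ` (`Series/Theta`) is nonzero and gives `RM.WeightOneData`. Otherwise the
coefficients `κ₃`, hence all periods (`Per/Periods`, `Per/Induct`), would vanish, against
`false_of_periods` (`Per/Kill`), whose hypothesis of divergence comes from `Main/Eig`.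
-/

set_option autoImplicit false
open scoped Classical ComplexConjugate

local notation "Γℚ" => (AlgebraicClosure ℚ ≃ₐ[ℚ] AlgebraicClosure ℚ)
local notation "ℚbar" => AlgebraicClosure ℚ

namespace Fermat.LT3
open Fermat.LT

variable {K L : Type} [Field K] [NumberField K] [Field L] [NumberField L] [Algebra K L]
  {ρ : Γℚ →* GL (Fin 2) (ZMod 3)} {ι : L →+* ℚbar} {σ : L ≃ₐ[K] L} {v3 : Place K}
  {lam : Place L → ℝ} {lamK : Place K → ℝ} {D : KData K}
  (h : EigData ρ ι D v3 lam lamK σ) (A : TAuto (lvl K L)) (hA : Matches D A lamK)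

/-- A prime `p ≡ 1` modulo `27 N` divides `3 n` exactly when it divides `n`. -/
lemma dvd_three_mul_iff {p N : ℕ} (hp : p.Prime) (hp1 : (p : ZMod (27 * 1 * N)) = 1) (n : ℕ) :
    (p : ℤ) ∣ 3 * (n : ℤ) ↔ p ∣ n := by
  have hp3 : ¬ p ∣ 3 := fun e => by
    obtain rfl := (Nat.prime_dvd_prime_iff_eq hp Nat.prime_three).1 e
    have := congrArg (ZMod.castHom (Dvd.dvd.mul_right (Dvd.dvd.mul_right (by norm_num) _) _)
      (ZMod 3)) hp1
    rw [map_natCast, map_one] at this
    exact absurd this (by decide)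
  rw [show (3 : ℤ) * (n : ℤ) = ((3 * n : ℕ) : ℤ) by push_cast; ring, Int.natCast_dvd_natCast]
  exact ⟨fun hd => ((Nat.Prime.dvd_mul hp).1 hd).resolve_left hp3, fun hd => hd.mul_left 3⟩

/-- A translate of `A` has the same eigenvalues. -/
lemma matches_rtr {A : TAuto (lvl K L)} (hA : Matches D A lamK) (δ : (RN (lvl K L))ˣ) :
    Matches D (A.rtr δ) lamK := fun π hπ => by rw [TAuto.rtr_lam]; exact hA π hπ

include h in
/-- The level is coprime to `3`. -/
lemma coprime_lvl : Nat.Coprime (lvl K L) 3 :=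
  (Nat.prime_three.coprime_iff_not_dvd.2 (three_not_dvd_lvl h.desc)).symm

include h hA in
/-- A prime `p ≡ 1` modulo `27 E` is a norm of some `ϖ`, whose eigenvalue is `√p` times the
lifted trace when `ρ τ` is in `Q₈`. -/
lemma lam_one_mod {p : ℕ} (hp : p.Prime) (hp1 : (p : ZMod (27 * 1 * lvl K L)) = 1)
    {B : ValuationSubring ℚbar} (hB : B.LiesOverPrime p) {τ : Γℚ} (hτ : B.IsFrobeniusAt τ p)
    (h8 : InQ8 (ρ τ)) :
    ∃ ϖ : EI, Prime ϖ ∧ QuadraticAlgebra.norm ϖ = (p : ℤ) ∧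
      (p : ZMod (3 * (3 * lvl K L))) = 1 ∧ A.lam ϖ = Real.sqrt p * (liftTr (ρ τ) : ℝ) := by
  have := D.pidEI
  have := Fact.mk hp
  have hdiv : ∀ m : ℕ, m ∣ 27 * 1 * lvl K L → (p : ZMod m) = 1 := fun m hm => by
    have := congrArg (ZMod.castHom hm (ZMod m)) hp1
    rwa [map_natCast, map_one] at this
  have h9 : (p : ZMod (3 * (3 * lvl K L))) = 1 := hdiv _ ⟨3, by ring⟩
  have h3 : p % 3 = 1 := by
    have := hdiv 3 (Dvd.dvd.mul_right (Dvd.dvd.mul_right (by norm_num) _) _)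
    rw [show (1 : ZMod 3) = ((1 : ℕ) : ZMod 3) by simp, ZMod.natCast_eq_natCast_iff'] at this
    exact this
  have hco : Nat.Coprime p (3 * lvl K L) :=
    (ZMod.isUnit_iff_coprime p _).1 (by rw [hdiv _ ⟨9, by ring⟩]; exact isUnit_one)
  obtain ⟨ϖ, hϖ⟩ := exists_norm_eq_of_one_mod (p := p) h3
  have hπ : Prime ϖ := prime_of_norm_prime hϖ (by omega)
  refine ⟨ϖ, hπ, hϖ, h9, ?_⟩
  have hl := (lam_over h A hA hp hco hB hτ hπ ⟨star ϖ, (mul_star_of_norm hϖ).symm⟩).2
  rw [fdeg, if_pos h3, pow_one, pow_one] at hl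
  exact hl h8

include h hA in
/-- The first lift satisfies the Hecke relation with the lifted trace at primes `≡ 1`. -/
lemma hecke_th1 [Fact (Nat.Coprime (lvl K L) 3)] {cls : Cl3} (hh : HolCase A.toAuto cls) {p : ℕ}
    (hp : p.Prime) (hp1 : (p : ZMod (27 * 1 * lvl K L)) = 1) {B : ValuationSubring ℚbar}
    (hB : B.LiesOverPrime p) {τ : Γℚ} (hτ : B.IsFrobeniusAt τ p) (h8 : InQ8 (ρ τ))
    (φ : CP (lvl K L) → ℂ) (n : ℕ) :
    (UpperHalfPlane.qExpansion (lvl K L : ℝ) ⇑(th1 A.toAuto cls hh φ)).coeff (p * n) +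
        (if p ∣ n then
          (UpperHalfPlane.qExpansion (lvl K L : ℝ) ⇑(th1 A.toAuto cls hh φ)).coeff (n / p) else 0) =
      (liftTr (ρ τ) : ℂ) *
        (UpperHalfPlane.qExpansion (lvl K L : ℝ) ⇑(th1 A.toAuto cls hh φ)).coeff n := by
  simp only [coeff_th1]
  rcases Nat.eq_zero_or_pos n with rfl | hn
  · simp [kap, pairCoef]
  obtain ⟨ϖ, hπ, hϖ, h9, hlam⟩ := lam_one_mod h A hA hp hp1 hB hτ h8
  have hs : (Real.sqrt p : ℂ) ≠ 0 := by simp [hp.ne_zero]
  have hk := kap_hecke_pos A.toAuto (per_spec cls φ) hπ hϖ hp h9 (n := 3 * (n : ℤ)) (by omega)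
  rw [show A.toAuto.lam ϖ = Real.sqrt p * (liftTr (ρ τ) : ℝ) from hlam, Complex.ofReal_mul,
    Complex.ofReal_intCast, mul_assoc] at hk
  have hk' := mul_left_cancel₀ hs hk
  rw [show 3 * ((p * n : ℕ) : ℤ) = (p : ℤ) * (3 * (n : ℤ)) by push_cast; ring, ← mul_div_assoc, hk',
    kapDiv]
  simp only [dvd_three_mul_iff hp hp1]
  split_ifs with hd
  · obtain ⟨k, rfl⟩ := hd
    rw [Nat.mul_div_cancel_left _ hp.pos, show 3 * ((p * k : ℕ) : ℤ) / (p : ℤ) = 3 * (k : ℤ) by
      rw [Nat.cast_mul, show 3 * ((p : ℤ) * k) = (p : ℤ) * (3 * k) by ring,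
        Int.mul_ediv_cancel_left _ (by exact_mod_cast hp.ne_zero)]]
    ring
  · ring

include h hA in
/-- The second lift satisfies the Hecke relation with the lifted trace at primes `≡ 1`. -/
lemma hecke_th2 [Fact (Nat.Coprime (lvl K L) 3)] (cls : Cl3) {p : ℕ}
    (hp : p.Prime) (hp1 : (p : ZMod (27 * 1 * lvl K L)) = 1) {B : ValuationSubring ℚbar}
    (hB : B.LiesOverPrime p) {τ : Γℚ} (hτ : B.IsFrobeniusAt τ p) (h8 : InQ8 (ρ τ))
    (φ : CP (lvl K L) → ℂ) (n : ℕ) :
    (UpperHalfPlane.qExpansion (lvl K L : ℝ) ⇑(th2 A.toAuto cls φ)).coeff (p * n) +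
        (if p ∣ n then (UpperHalfPlane.qExpansion (lvl K L : ℝ) ⇑(th2 A.toAuto cls φ)).coeff (n / p)
          else 0) =
      (liftTr (ρ τ) : ℂ) *
        (UpperHalfPlane.qExpansion (lvl K L : ℝ) ⇑(th2 A.toAuto cls φ)).coeff n := by
  simp only [coeff_th2]
  rcases Nat.eq_zero_or_pos n with rfl | hn
  · simp [kap, pairCoef]
  obtain ⟨ϖ, hπ, hϖ, h9, hlam⟩ := lam_one_mod h A hA hp hp1 hB hτ h8
  set Ψ := spec cls fun x => conj (φ x)
  set T : ℝ := (liftTr (ρ τ) : ℝ) with hT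
  -- the Hecke relation of the coefficients, conjugated
  have hk := kap_hecke_neg A.toAuto (per_spec cls fun x => conj (φ x)) hπ hϖ hp h9
    (n := -(3 * (n : ℤ))) (by omega)
  rw [show A.toAuto.lam ϖ = Real.sqrt p * T from hlam] at hk
  have hk2 := congrArg conj hk
  simp only [map_mul, map_add, Complex.conj_ofReal, map_natCast, Complex.ofReal_mul] at hk2
  have hp0 : (0 : ℝ) < p := Nat.cast_pos.2 hp.pos
  have hs : (Real.sqrt p : ℂ) ≠ 0 := by simp [hp.ne_zero]
  have hsn : (Real.sqrt n : ℂ) ≠ 0 := by simp; omega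
  have hsp : (Real.sqrt p : ℂ) * (Real.sqrt p : ℂ) = (p : ℂ) := by
    rw [← Complex.ofReal_mul, Real.mul_self_sqrt hp0.le]; simp
  have hTc : ((liftTr (ρ τ) : ℤ) : ℂ) = (T : ℂ) := by simp [hT]
  rw [hTc, show -(3 * ((p * n : ℕ) : ℤ)) = (p : ℤ) * -(3 * (n : ℤ)) by push_cast; ring,
    show ((p * n : ℕ) : ℝ) = (p : ℝ) * n by
      push_cast; ring, Real.sqrt_mul hp0.le, Complex.ofReal_mul]
  rw [kapDiv] at hk2
  -- whether `p` divides `n`
  split_ifs with hd
  · obtain ⟨k, rfl⟩ := hd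
    have hsk : (Real.sqrt k : ℂ) ≠ 0 := by
      simp
      rintro rfl
      simp at hn
    rw [if_pos ⟨-(3 * (k : ℤ)), by push_cast; ring⟩,
      show -(3 * ((p * k : ℕ) : ℤ)) / (p : ℤ) = -(3 * (k : ℤ)) by
        rw [Nat.cast_mul, show -(3 * ((p : ℤ) * k)) = (p : ℤ) * -(3 * k) by ring,
          Int.mul_ediv_cancel_left _ (by exact_mod_cast hp.ne_zero)]] at hk2
    rw [Nat.mul_div_cancel_left _ hp.pos, show ((p * k : ℕ) : ℝ) = (p : ℝ) * k by push_cast; ring,
      Real.sqrt_mul hp0.le, Complex.ofReal_mul]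
    field_simp
    linear_combination (-1 : ℂ) * hk2 - (conj (kap A.toAuto Ψ (-(3 * (k : ℤ))))) *
      hsp.symm
  · have h3 : ¬ (p : ℤ) ∣ -(3 * (n : ℤ)) := by rwa [Int.dvd_neg, dvd_three_mul_iff hp hp1]
    rw [if_neg h3, map_zero, mul_zero, add_zero] at hk2
    field_simp
    linear_combination (-Complex.I) * hk2

/-- A nonzero coefficient at `3` makes the first lift nonzero. -/
lemma th1_ne_zero {E : ℕ} [NeZero E] [Fact (Nat.Coprime E 3)] (T : Auto E) {cls : Cl3}
    (hh : HolCase T cls) {φ : CP E → ℂ} (hk : kap T (spec cls φ) 3 ≠ 0) : th1 T cls hh φ ≠ 0 := by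
  intro e
  have h1 := coeff_th1 T hh φ 1
  rw [e, FunLike.coe_zero, UpperHalfPlane.qExpansion_zero, map_zero, Nat.cast_one, mul_one] at h1
  exact hk (by linear_combination (-2 : ℂ) * h1)

/-- A nonzero negative coefficient makes the second lift nonzero. -/
lemma th2_ne_zero {E : ℕ} [NeZero E] [Fact (Nat.Coprime E 3)] (T : Auto E) (cls : Cl3)
    {φ : CP E → ℂ} {n : ℤ} (hn : n < 0) (hk : kap T (spec cls φ) n ≠ 0) :
    th2 T cls (fun x => conj (φ x)) ≠ 0 := by
  intro e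
  obtain ⟨k, rfl⟩ : (3 : ℤ) ∣ n := by
    by_contra hd
    exact hk (kap_spec_eq_zero T cls φ hd)
  obtain ⟨m, rfl⟩ : ∃ m : ℕ, k = -(m : ℤ) :=
    ⟨(-k).toNat, by rw [Int.toNat_of_nonneg (by omega)]; ring⟩
  have h1 := coeff_th2 T cls (fun x => conj (φ x)) m
  simp only [Complex.conj_conj] at h1
  rw [e, FunLike.coe_zero, UpperHalfPlane.qExpansion_zero, map_zero] at h1
  rcases mul_eq_zero.1 h1.symm with h2 | h2
  · exact hk (by rw [show (3 : ℤ) * -(m : ℤ) = -(3 * (m : ℤ)) by ring]; exact (map_eq_zero _).1 h2)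
  · simp [Complex.I_ne_zero] at h2
    omega

include h hA in
/-- Weight one data from the first lift, if its coefficient at `3` is not zero. -/
theorem data_of_th1 [Fact (Nat.Coprime (lvl K L) 3)] {cls : Cl3} (hh : HolCase A.toAuto cls)
    {φ0 : CP (lvl K L) → ℂ} (hk : kap A.toAuto (spec cls φ0) 3 ≠ 0) :
    Nonempty (RM.WeightOneData ρ) :=
  ⟨{ E₁ := 1
     E₂ := lvl K L
     squarefree := by rw [one_mul]; exact squarefree_lvl
     not_three := by rw [one_mul]; exact three_not_dvd_lvl h.desc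
     chr := chrQ A
     chr_cube := fun _ hu => chrQ_cube A hu
     weil := weil1
     weil_one := weil1_one
     cst := -1
     weil_T := weil1_T
     weil_diag := weil1_diag
     sgn := gauss (lvl K L) / (lvl K L : ℂ)
     sgn_pow := sgn1_pow
     weil_S := weil1_S
     theta := th1 A.toAuto cls hh
     theta_equivariant := fun γ φ => equiv1 γ A.toAuto cls hh φ
     theta_chr := fun _ hu φ => (th_cmul A cls hu φ).1 hh
     theta_ne_zero := ⟨φ0, th1_ne_zero A.toAuto hh hk⟩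
     hecke := fun _ hp hp1 _ hB _ hτ h8 φ n => hecke_th1 h A hA hh hp hp1 hB hτ h8 φ n }⟩

include h hA in
/-- Weight one data from the second lift, if some negative coefficient is not zero. -/
theorem data_of_th2 [Fact (Nat.Coprime (lvl K L) 3)] (cls : Cl3)
    {φ0 : CP (lvl K L) → ℂ} {n0 : ℤ} (hn : n0 < 0) (hk : kap A.toAuto (spec cls φ0) n0 ≠ 0) :
    Nonempty (RM.WeightOneData ρ) :=
  ⟨{ E₁ := 1
     E₂ := lvl K L
     squarefree := by rw [one_mul]; exact squarefree_lvl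
     not_three := by rw [one_mul]; exact three_not_dvd_lvl h.desc
     chr := fun u => conj (chrQ A u)
     chr_cube := fun _ hu => by rw [← map_pow, chrQ_cube A hu, map_one]
     weil := weil2
     weil_one := weil2_one
     cst := 1
     weil_T := weil2_T
     weil_diag := weil2_diag
     sgn := conj (gauss (lvl K L) / (lvl K L : ℂ))
     sgn_pow := sgn2_pow
     weil_S := weil2_S
     theta := th2 A.toAuto cls
     theta_equivariant := fun γ φ => equiv2 γ A.toAuto cls φ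
     theta_chr := fun _ hu φ => (th_cmul A cls hu φ).2
     theta_ne_zero := ⟨_, th2_ne_zero A.toAuto cls hn hk⟩
     hecke := fun _ hp hp1 _ hB _ hτ h8 φ n => hecke_th2 h A hA cls hp hp1 hB hτ h8 φ n }⟩

include h hA in
/-- **One of the two lifts gives weight one data**: otherwise all periods would vanish, against
`false_of_periods`. -/
theorem data_of_tauto : Nonempty (RM.WeightOneData ρ) := by
  have : Fact (Nat.Coprime (lvl K L) 3) := ⟨coprime_lvl h⟩
  have := D.pidEI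
  have := h.desc.totallyComplexK
  by_cases h2 : ∃ (δ : (RN (lvl K L))ˣ) (cls : Cl3) (φ : CP (lvl K L) → ℂ) (n : ℤ),
      n < 0 ∧ kap (A.rtr δ).toAuto (spec cls φ) n ≠ 0
  · obtain ⟨δ, cls, φ, n, hn, hk⟩ := h2
    exact data_of_th2 h (A.rtr δ) (matches_rtr hA δ) cls hn hk
  -- otherwise no translate has negative coefficients, so each first lift is holomorphic
  push Not at h2
  by_cases h1 : ∃ (δ : (RN (lvl K L))ˣ) (cls : Cl3) (φ : CP (lvl K L) → ℂ),
      kap (A.rtr δ).toAuto (spec cls φ) 3 ≠ 0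
  · obtain ⟨δ, cls, φ, hk⟩ := h1
    exact data_of_th1 h (A.rtr δ) (matches_rtr hA δ) (fun φ n hn => h2 δ cls φ n hn) hk
  push Not at h1
  have : FiniteDimensional ℚ (LT.Theta.Gal.nField ρ) := LT.Theta.Gal.finite_nField h.rho.continuous
  have : NumberField (LT.Theta.Gal.nField ρ) := ⟨⟩
  exfalso
  refine false_of_periods D A squarefree_lvl (coprime_lvl h) (lamOK_lift h A hA)
    (FullSplit ρ (lvl K L)) (fun p hp hP => fullSplit_spec h A hA hp hP) fullSplit_div
    fun δ N hN s hs => ?_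
  exact PS_eq_zero (A.rtr δ) (coprime_lvl h) squarefree_lvl (h1 δ) (decay_qS (by linarith))
    (isEven_qS s) hN

end Fermat.LT3
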