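import Fermat.Agent.LT3.Main.Lift
import Fermat.Agent.LT3.BridgeMain
import Fermat.Agent.LT.Sys.Proved
import Fermat.Agent.LT.Theta.Main

/-!
# The weight one data with its module at the ramified primes

`weightOneDataStatement`, the output of `LT3` and the input of `RM/Main`: the theta form on `L`
(`LT/Theta`) descends along the cubic extension `L / K` (`LT/Sys`); the form on `K` becomes a
classical function with types at the ramified primes (`exists_tauto` of `BridgeMain`), whose lift
gives the data (`data_of_tauto` of `Main/Lift`).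
-/

set_option autoImplicit false

local notation "Γℚ" => (AlgebraicClosure ℚ ≃ₐ[ℚ] AlgebraicClosure ℚ)
local notation "ℚbar" => AlgebraicClosure ℚ

namespace Fermat.LT3
open Fermat.LT

variable {K L : Type} [Field K] [NumberField K] [Field L] [NumberField L] [Algebra K L]
  {ρ : Γℚ →* GL (Fin 2) (ZMod 3)} {ι : L →+* ℚbar}

/-- `K`, cut out by the determinant of `ρ`, is quadratic. -/
lemma finrank_K_of_rho (hρ : RhoData ρ) (hF : FieldData K L ρ ι) : Module.finrank ℚ K = 2 := by
  have := Theta.Gal.finite_nField hρ.continuous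
  have := Theta.Gal.isGalois_nField hρ.continuous
  let _ : Algebra L (Theta.Gal.nField ρ) := (Theta.Gal.lIncl hF).toAlgebra
  let _ : Algebra K (Theta.Gal.nField ρ) :=
    ((Theta.Gal.lIncl hF).comp (algebraMap K L)).toAlgebra
  have : IsScalarTower K L (Theta.Gal.nField ρ) := IsScalarTower.of_algebraMap_eq' rfl
  obtain ⟨T, -⟩ := Theta.Gal.qTower hF hρ (RingHom.algebraMap_toAlgebra _)
  exact T.finrank_K

variable {v3 : Place K} {lam : Place L → ℝ}

/-- A descended form gives a classical function with types at the ramified primes and the same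
eigenvalues. -/
theorem exists_tauto_of_descent (D : KData K) (d : DescentData K L v3 lam) {lamK : Place K → ℝ}
    {Φ : Pt K (levK L v3) → ℂ} (hform : IsForm (levK L v3) {v3} lamK Φ)
    (hfix : ∀ (v : Place K) (hv : v ∈ ramSet K L) (p : Pt K (levK L v3)),
      locAct v (ramKer v (Set.mem_insert_of_mem v3 hv)) Φ p = Φ p) :
    ∃ A : TAuto (lvl K L), Matches D A lamK := by
  have := d.totallyComplexK
  have : Finite (levK L v3) :=
    ((Sys.finite_ramSet (K := K) (L := L)).insert v3).to_subtype
  have hB := bData_lvl D d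
  obtain ⟨ζ, hζ⟩ := d.zeta3
  refine exists_tauto hB squarefree_lvl (isPreForm_of_isForm hform) hform.nonzero (fun v => ?_)
    fun v => ?_
  · rw [← Nat.card_eq_fintype_card, natCard_residue]
    exact Sys.residue_zeta3 (fun h3 => hB.ne_v3 v.2 (d.only3 v.1 h3)) hζ
  · exact relAt_ramFun _
      (hfix v.1 ((Set.mem_insert_iff.1 (hB.mem_of_E v.2)).resolve_left (hB.ne_v3 v.2)))

/-- **The weight one data**, by theta, cubic descent, typing and lifting. -/
theorem weightOneDataStatement (K L : Type) [Field K] [NumberField K] [Field L] [NumberField L]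
    [Algebra K L] : RM.WeightOneDataStatement K L := by
  intro ρ ι hρ hF
  -- theta form on `L`, descended to `K`
  obtain ⟨v3, lam, hE, d⟩ := thetaStatement K L ρ ι hρ hF
  obtain ⟨lamK, Φ, hform, hfix, hlift, hstab⟩ := Sys.descentStatement K L v3 lam d
  obtain ⟨σ, hc⟩ := Sys.exists_sigma d
  obtain ⟨ζ, hζ⟩ := d.zeta3
  have := d.totallyComplexK
  -- typed classical function, and its lift
  obtain ⟨D⟩ := exists_kData K (finrank_K_of_rho hρ hF) hζ
  obtain ⟨A, hA⟩ := exists_tauto_of_descent D d hform hfix
  exact data_of_tauto (D := D) ⟨hρ, hF, hc, d, hE, hlift, hstab⟩ A hA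

end Fermat.LT3
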